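/-
S45lib / SS / GlueFam  (helper4)  --  Project J, supersingular-point block of (KM)

ABSTRACT (GLUE) FOR A FAMILY OF PLACES.  Generalisation of `S36lib/Reg/Glue3` (three places, star
`1 → 2 ← 3`) to a family `P : ∀ i : ι, Norm.Place F (κ i)` of bare places of a field `F` with a
MULTIPOINT `x : ∀ i, Place k (κ i)` (one place on every component) and a test ring `S`:

* `ballFam S P`     : the test ring `S ∩ ⋂ᵢ Oᵢ`;
* `GlueAtFam P x S` : every `f ∈ S ∩ ⋂ᵢ Oᵢ` has reductions with a COMMON VALUE at the multipoint;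
* `IsLink S P x A B`: the hypotheses of `Reg.glue_pair_value` for the ordered pair `A → B`
                      (a twist `V : κ_A →+* κ_B` carrying `x_A` to `x_B`, lifts `f` with
                      `red_A f = red_A h`, `red_B f = V (red_A h)`, a unit `Y` with the power trick and
                      `red_B Y` vanishing at `x_B`);
* `IsLink.value`    : a link transports the value at `x_A` to `x_B`;
* `glueAtFam_of_links` : if every component is reachable from a root `i₀` by links, (GLUE) holds;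
* `pow_trick_fam`   : the power-trick hypothesis of a link from `IsArch O_A` and
                      `Y⁻¹ ∈ S ∩ ⋂_{i ≠ A} Oᵢ`;
* `GlueAtFam.of_mul_pow` : the chart form (`f · w^b ∈ S`, `w` a unit at the multipoint).
-/
import Mathlib
import Fermat.Agent.S36lib.Reg.Glue3

set_option autoImplicit false

noncomputable section

namespace Fermat.Agent.S45lib.SS

open AlgebraicCurve
open Fermat.Agent.LSb (HasValueAt)
open Fermat.Agent.S36lib

variable {F : Type*} [Field F] {k : Type*} [Field k]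
variable {ι : Type*} {κ : ι → Type*} [∀ i, Field (κ i)] [∀ i, Algebra k (κ i)]

/-- the test ring `S ∩ ⋂ᵢ Oᵢ` -/
def ballFam (S : Subring F) (P : ∀ i, Norm.Place F (κ i)) : Subring F :=
  S ⊓ ⨅ i, (P i).O.toSubring

theorem mem_ballFam {S : Subring F} {P : ∀ i, Norm.Place F (κ i)} {f : F} :
    f ∈ ballFam S P ↔ f ∈ S ∧ ∀ i, f ∈ (P i).O := by
  rw [ballFam, Subring.mem_inf, Subring.mem_iInf]
  rfl

theorem ballFam_le_S {S : Subring F} {P : ∀ i, Norm.Place F (κ i)} {f : F}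
    (hf : f ∈ ballFam S P) : f ∈ S := (mem_ballFam.1 hf).1

theorem ballFam_le_O {S : Subring F} {P : ∀ i, Norm.Place F (κ i)} {f : F}
    (hf : f ∈ ballFam S P) (i : ι) : f ∈ (P i).O := (mem_ballFam.1 hf).2 i

/-- **(GLUE) at a multipoint** for the functions of a set `S`: the reductions of every `f ∈ S`
which is integral for all the places have a common value. -/
def GlueAtFam (P : ∀ i, Norm.Place F (κ i)) (x : ∀ i, Place k (κ i)) (S : Set F) : Prop :=
  ∀ f ∈ S, (∀ i, f ∈ (P i).O) → ∃ α : k, ∀ i, HasValueAt (x i) ((P i).redF f) α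

/-- a value on one component propagates to all the others -/
theorem GlueAtFam.of_value {P : ∀ i, Norm.Place F (κ i)} {x : ∀ i, Place k (κ i)} {S : Set F}
    (hG : GlueAtFam P x S) {f : F} (hf : f ∈ S) (hO : ∀ i, f ∈ (P i).O) {i₀ : ι} {α : k}
    (hα : HasValueAt (x i₀) ((P i₀).redF f) α) (i : ι) :
    HasValueAt (x i) ((P i).redF f) α := by
  obtain ⟨β, hβ⟩ := hG f hf hO
  rw [hα.unique (hβ i₀)]
  exact hβ i

/-- **A link `A → B`**: the hypotheses of `Reg.glue_pair_value` for the ordered pair `(A, B)`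
inside the ball. -/
def IsLink (S : Subring F) (P : ∀ i, Norm.Place F (κ i)) (x : ∀ i, Place k (κ i))
    (A B : ι) : Prop :=
  ∃ (V : κ A →+* κ B) (Y : F),
    (∀ (z : κ A) (α : k), HasValueAt (x A) z α → HasValueAt (x B) (V z) α) ∧
    (∀ h ∈ ballFam S P, ∃ f ∈ ballFam S P,
      (P A).redF f = (P A).redF h ∧ (P B).redF f = V ((P A).redF h)) ∧
    Y ≠ 0 ∧ Y ∈ (P B).O ∧
    (∀ e ∈ ballFam S P, (P A).redF e = 0 → ∃ n : ℕ, e ^ n * Y⁻¹ ∈ ballFam S P) ∧
    (x B).adicValuation ((P B).redF Y) < 1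

/-- a link transports the value at `x_A` to `x_B` -/
theorem IsLink.value {S : Subring F} {P : ∀ i, Norm.Place F (κ i)} {x : ∀ i, Place k (κ i)}
    {A B : ι} (hL : IsLink S P x A B)
    (hregB : ∀ f ∈ ballFam S P, (P B).redF f ∈ (x B).toValuationSubring)
    {f : F} (hf : f ∈ ballFam S P) {α : k} (hα : HasValueAt (x A) ((P A).redF f) α) :
    HasValueAt (x B) ((P B).redF f) α := by
  obtain ⟨V, Y, hx, hlift, hY0, hYB, hpow, hH⟩ := hL
  exact Reg.glue_pair_value (P A) (P B) (ballFam S P) (fun f hf => ballFam_le_O hf A)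
    (fun f hf => ballFam_le_O hf B) V hlift hY0 hYB hpow (x B) hregB hH hf (hx _ _ hα)

/-- **(GLUE) from links**: if every component is reachable from a root `i₀` (whose place has degree
one) by a chain of links, and the reductions of the ball are regular at the multipoint, then
(GLUE) holds. -/
theorem glueAtFam_of_links (S : Subring F) (P : ∀ i, Norm.Place F (κ i))
    (x : ∀ i, Place k (κ i)) (i₀ : ι) (hd : (x i₀).deg = 1)
    (hreg : ∀ i, ∀ f ∈ ballFam S P, (P i).redF f ∈ (x i).toValuationSubring)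
    (hreach : ∀ i, Relation.ReflTransGen (IsLink S P x) i₀ i) :
    GlueAtFam P x (S : Set F) := by
  intro f hfS hfO
  have hf : f ∈ ballFam S P := mem_ballFam.2 ⟨hfS, hfO⟩
  obtain ⟨α, hα⟩ := LSb.exists_hasValueAt hd
    (Reg.adicValuation_le_one_of_mem (hreg i₀ f hf))
  refine ⟨α, fun i => ?_⟩
  induction hreach i with
  | refl => exact hα
  | tail _ hL ih => exact hL.value (hreg _) hf ih

/-- **the power-trick hypothesis of a link** from rank one of `O_A` and
`Y⁻¹ ∈ S ∩ ⋂_{i ≠ A} Oᵢ`. -/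
theorem pow_trick_fam (S : Subring F) (P : ∀ i, Norm.Place F (κ i)) (A : ι)
    (harch : Norm.IsArch (P A).O) {Y : F} (hYS : Y⁻¹ ∈ S)
    (hYO : ∀ i, i ≠ A → Y⁻¹ ∈ (P i).O) :
    ∀ e ∈ ballFam S P, (P A).redF e = 0 → ∃ n : ℕ, e ^ n * Y⁻¹ ∈ ballFam S P := by
  intro e he hred
  obtain ⟨heS, heO⟩ := mem_ballFam.1 he
  obtain ⟨n, hn⟩ := Reg.exists_pow_mul_inv_mem (P A) harch (heO A) hred Y
  refine ⟨n, mem_ballFam.2 ⟨S.mul_mem (S.pow_mem heS n) hYS, fun i => ?_⟩⟩
  by_cases hi : i = A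
  · subst hi
    exact hn
  · exact (P i).O.mul_mem _ _ ((P i).O.pow_mem (heO i) n) (hYO i hi)

/-- a link from its natural ingredients: a unit `Y` of `S` (both `Y`, `Y⁻¹ ∈ S`) with
`Y⁻¹ ∈ Oᵢ` for `i ≠ A`, `Y ∈ O_B`, `red_B Y` vanishing at `x_B`, rank one of `O_A`. -/
theorem isLink_of_unit (S : Subring F) (P : ∀ i, Norm.Place F (κ i)) (x : ∀ i, Place k (κ i))
    {A B : ι} (V : κ A →+* κ B)
    (hx : ∀ (z : κ A) (α : k), HasValueAt (x A) z α → HasValueAt (x B) (V z) α)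
    (hlift : ∀ h ∈ ballFam S P, ∃ f ∈ ballFam S P,
      (P A).redF f = (P A).redF h ∧ (P B).redF f = V ((P A).redF h))
    (harch : Norm.IsArch (P A).O) {Y : F} (hY0 : Y ≠ 0) (hYS : Y⁻¹ ∈ S)
    (hYO : ∀ i, i ≠ A → Y⁻¹ ∈ (P i).O) (hYB : Y ∈ (P B).O)
    (hH : (x B).adicValuation ((P B).redF Y) < 1) : IsLink S P x A B :=
  ⟨V, Y, hx, hlift, hY0, hYB, pow_trick_fam S P A harch hYS hYO, hH⟩

/-- **chart form of (GLUE)**: if `f · w^b ∈ S` for a function `w ∈ S ∩ ⋂ᵢ Oᵢ` which is a unit at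
the multipoint on ONE component `i₀` (`red w ≠ 0`, `(red w)⁻¹` regular at `x i₀`), then the
reductions of `f ∈ ⋂ᵢ Oᵢ` have a common value. -/
theorem GlueAtFam.of_mul_pow {S : Subring F} {P : ∀ i, Norm.Place F (κ i)}
    {x : ∀ i, Place k (κ i)} (hG : GlueAtFam P x (S : Set F)) {w : F} (hwS : w ∈ S)
    (hwO : ∀ i, w ∈ (P i).O) (i₀ : ι) (hwred : (P i₀).redF w ≠ 0)
    (hxw : ((P i₀).redF w)⁻¹ ∈ (x i₀).toValuationSubring) {f : F} (b : ℕ)
    (hf : f * w ^ b ∈ S) (hfO : ∀ i, f ∈ (P i).O) :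
    ∃ α : k, ∀ i, HasValueAt (x i) ((P i).redF f) α := by
  obtain ⟨α', hα'⟩ := hG (f * w ^ b) hf
    (fun i => (P i).O.mul_mem _ _ (hfO i) ((P i).O.pow_mem (hwO i) b))
  obtain ⟨β, hβ⟩ := hG w hwS hwO
  have hβ0 : β ≠ 0 := Reg.ne_zero_of_hasValueAt_of_inv_mem (hβ i₀) hwred hxw
  refine ⟨α' * (β ^ b)⁻¹, fun i => ?_⟩
  have hwredi : (P i).redF w ≠ 0 := (hβ i).ne_zero hβ0
  have h1 : (P i).redF f = (P i).redF (f * w ^ b) * ((P i).redF w ^ b)⁻¹ := by
    rw [(P i).redF_mul (hfO i) ((P i).O.pow_mem (hwO i) b), (P i).redF_pow (hwO i), mul_assoc,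
      mul_inv_cancel₀ (pow_ne_zero b hwredi), mul_one]
  rw [h1]
  exact (hα' i).mul (((hβ i).pow b).inv (pow_ne_zero b hβ0))

end Fermat.Agent.S45lib.SS
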