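/-
S45lib / SS / RegFam  (helper4)  --  Project J, supersingular-point block of (KM)

ABSTRACT (REG) FOR A FAMILY OF PLACES: THE ONE UNIT CONDITION AT A MULTIPOINT.
Generalisation of `S36lib/Reg/Abstract` (three places, `π = unit · f₁ · ϖ^e · f₃`) to a finite family
`P : ∀ i : ι, Norm.Place F (κ i)` with multipoint `x : ∀ i, Place k (κ i)`, multiplicities `e i`
and test ring `S` for which (GLUE) holds (`SS.GlueAtFam`).

Input (`RegDataFam`):
* units `E i` of `S` with `∏ᵢ E i = π ^ m` and "valuations" `v_j(E i) = m · δ_ij`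
  (application: `E_a = X_a / X_{a-1}`, `X_i = Δ(qⁱz)/Δ(qⁱ⁺¹z)`, `m = 12`);
* local equations `t i ∈ S` with `(t i) ^ (e i) / π ∈ Oᵢ` and `t i ∈ O_j` (`j ≠ i`);
* for every `i` ONE witness component `wit i ≠ i` on which the EXACT orders at the multipoint are
  known and balanced: `ord red (t i) = w i`, `ord red (E i) = e i · m · w i`
  (`w i` = the local intersection weight of the two branches).

Output:
* `R_value`  : `R i = (t i)^(e i · m) / E i` lies in the ball and has a NONZERO common value;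
* `t_unit`   : `(t i)^(e i) / π` is a unit of `Oᵢ` (so `t i` is a uniformizer of the `i`-th component
               when its value group is `(1/e i) ℤ`);
* `t_red_other` : `t i` is a unit of `O_j` for `j ≠ i`;
* `main`     : `U = (∏ᵢ (t i)^(e i)) / π` has a NONZERO common value at the multipoint: the local
               equation of the special fibre is `π = unit · ∏ᵢ tᵢ^{eᵢ}`.
No Kronecker congruence mod `q²`, no local rings.
-/
import Mathlib
import Fermat.Agent.S36lib.Reg.Abstract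
import Fermat.Agent.S45lib.SS.GlueFam

set_option autoImplicit false

noncomputable section

namespace Fermat.Agent.S45lib.SS

open AlgebraicCurve
open Fermat.Agent.LSb (HasValueAt)
open Fermat.Agent.S36lib

variable {F : Type*} [Field F] {k : Type*} [Field k]
variable {ι : Type*} [Fintype ι]
variable {κ : ι → Type*} [∀ i, Field (κ i)] [∀ i, Algebra k (κ i)]

/-- values of a finite product -/
theorem hasValueAt_prod {K Fk : Type*} [Field K] [Field Fk] [Algebra K Fk] {Q : Place K Fk}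
    {ι' : Type*} {s : Finset ι'} {z : ι' → Fk} {c : ι' → K}
    (hz : ∀ i ∈ s, HasValueAt Q (z i) (c i)) : HasValueAt Q (∏ i ∈ s, z i) (∏ i ∈ s, c i) := by
  classical
  induction s using Finset.induction_on with
  | empty => simpa using Fermat.Agent.LSb.hasValueAt_one (Q := Q)
  | insert a s ha ih =>
    rw [Finset.prod_insert ha, Finset.prod_insert ha]
    exact (hz a (Finset.mem_insert_self a s)).mul
      (ih fun i hi => hz i (Finset.mem_insert_of_mem hi))

/-- **The input of (REG) at one multipoint.** -/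
structure RegDataFam (P : ∀ i, Norm.Place F (κ i)) (x : ∀ i, Place k (κ i)) (S : Subring F)
    (π : F) (m : ℕ) (e : ι → ℕ) (E t : ι → F) (wit : ι → ι) (w : ι → ℕ) : Prop where
  /-- (GLUE) -/
  glue : GlueAtFam P x (S : Set F)
  deg : ∀ i, (x i).deg = 1
  m_pos : 0 < m
  π_ne : π ≠ 0
  π_inv_mem : π⁻¹ ∈ S
  /-- `π` lies in every maximal ideal -/
  π_lt : ∀ i, (P i).O.valuation π < 1
  -- the units
  E_inv_mem : ∀ i, (E i)⁻¹ ∈ S
  E_mul : ∏ i, E i = π ^ m
  /-- `E i` has "valuation" `m` on the `i`-th component … -/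
  E_red_self : ∀ i, (P i).redF (E i * (π ^ m)⁻¹) ≠ 0
  /-- … and `0` on the others -/
  E_red_other : ∀ i j, j ≠ i → (P j).redF (E i) ≠ 0
  -- the local equations
  t_mem : ∀ i, t i ∈ S
  t_mem_self : ∀ i, t i ^ e i * π⁻¹ ∈ (P i).O
  t_mem_other : ∀ i j, j ≠ i → t i ∈ (P j).O
  -- the witnesses
  wit_ne : ∀ i, wit i ≠ i
  ord_t : ∀ i, (x (wit i)).ord ((P (wit i)).redF (t i)) = w i
  ord_E : ∀ i, (x (wit i)).ord ((P (wit i)).redF (E i)) = (e i : ℤ) * m * w i
  w_pos : ∀ i, 0 < w i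
  e_pos : ∀ i, 0 < e i

namespace RegDataFam

variable {P : ∀ i, Norm.Place F (κ i)} {x : ∀ i, Place k (κ i)} {S : Subring F}
variable {π : F} {m : ℕ} {e : ι → ℕ} {E t : ι → F} {wit : ι → ι} {w : ι → ℕ}
variable (h : RegDataFam P x S π m e E t wit w)

include h

theorem πm_ne : π ^ m ≠ 0 := pow_ne_zero m h.π_ne

theorem E_ne (i : ι) : E i ≠ 0 := by
  intro h0
  have := h.E_red_other i (wit i) (h.wit_ne i)
  rw [h0] at this
  exact this (P (wit i)).redF_zero

/-- `R i = (t i)^(e i · m) / E i`, rewritten for the `i`-th component -/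
theorem R_eq (i : ι) :
    t i ^ (e i * m) * (E i)⁻¹ = (t i ^ e i * π⁻¹) ^ m * (E i * (π ^ m)⁻¹)⁻¹ := by
  have hπ : (π ^ m)⁻¹ * π ^ m = 1 := inv_mul_cancel₀ h.πm_ne
  rw [mul_pow, mul_inv, inv_inv, inv_pow, ← pow_mul]
  calc t i ^ (e i * m) * (E i)⁻¹
      = t i ^ (e i * m) * (E i)⁻¹ * ((π ^ m)⁻¹ * π ^ m) := by rw [hπ, mul_one]
    _ = _ := by ring

theorem R_mem (i : ι) : t i ^ (e i * m) * (E i)⁻¹ ∈ S :=
  S.mul_mem (S.pow_mem (h.t_mem i) _) (h.E_inv_mem i)

theorem R_memO (i j : ι) : t i ^ (e i * m) * (E i)⁻¹ ∈ (P j).O := by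
  by_cases hj : j = i
  · subst hj
    rw [h.R_eq]
    exact (P j).O.mul_mem _ _ ((P j).O.pow_mem (h.t_mem_self j) m)
      ((P j).inv_mem_of_redF_ne_zero (h.E_red_self j))
  · exact (P j).O.mul_mem _ _ ((P j).O.pow_mem (h.t_mem_other i j hj) _)
      ((P j).inv_mem_of_redF_ne_zero (h.E_red_other i j hj))

/-- `R i` has a nonzero common value at the multipoint (computed on the witness component) -/
theorem R_value (i : ι) : ∃ α : k, α ≠ 0 ∧
    ∀ j, HasValueAt (x j) ((P j).redF (t i ^ (e i * m) * (E i)⁻¹)) α := by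
  set j₀ := wit i with hj₀
  have hne0 : j₀ ≠ i := h.wit_ne i
  have hwpos : (0 : ℤ) < w i := by exact_mod_cast h.w_pos i
  have hf : (P j₀).redF (t i) ≠ 0 :=
    Reg.ne_zero_of_ord_ne_zero (Q := x j₀) (by rw [h.ord_t i]; exact hwpos.ne')
  have hE : (P j₀).redF (E i) ≠ 0 := h.E_red_other i j₀ hne0
  have htO : t i ∈ (P j₀).O := h.t_mem_other i j₀ hne0
  have hred : (P j₀).redF (t i ^ (e i * m) * (E i)⁻¹) =
      (P j₀).redF (t i) ^ (e i * m) * ((P j₀).redF (E i))⁻¹ := by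
    rw [(P j₀).redF_mul ((P j₀).O.pow_mem htO _) ((P j₀).inv_mem_of_redF_ne_zero hE),
      (P j₀).redF_pow htO, (P j₀).redF_inv hE]
  have hne : (P j₀).redF (t i ^ (e i * m) * (E i)⁻¹) ≠ 0 := by
    rw [hred]
    exact mul_ne_zero (pow_ne_zero _ hf) (inv_ne_zero hE)
  have hord : (x j₀).ord ((P j₀).redF (t i ^ (e i * m) * (E i)⁻¹)) = 0 := by
    rw [hred, Reg.ord_pow_mul_inv hf hE, h.ord_t i, h.ord_E i]
    push_cast
    ring
  obtain ⟨α, hα0, hα⟩ := Reg.exists_hasValueAt_ne_zero (h.deg j₀) hne hord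
  exact ⟨α, hα0, fun j => h.glue.of_value (h.R_mem i) (h.R_memO i) hα j⟩

/-- `e i · vᵢ(t i) = vᵢ(π)`: `(t i)^(e i) / π` is a unit of `Oᵢ` -/
theorem t_unit (i : ι) : (P i).redF (t i ^ e i * π⁻¹) ≠ 0 := by
  obtain ⟨α, hα0, hα⟩ := h.R_value i
  have hne := (hα i).ne_zero hα0
  rw [h.R_eq, (P i).redF_mul ((P i).O.pow_mem (h.t_mem_self i) m)
    ((P i).inv_mem_of_redF_ne_zero (h.E_red_self i)), (P i).redF_pow (h.t_mem_self i)] at hne
  intro h0
  rw [h0, zero_pow h.m_pos.ne', zero_mul] at hne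
  exact hne rfl

/-- `t i` lies in the maximal ideal of `Oᵢ` -/
theorem t_lt_self (i : ι) : (P i).O.valuation (t i) < 1 := by
  have h1 : (P i).O.valuation (t i ^ e i * π⁻¹) ≤ 1 :=
    ((P i).O.valuation_le_one_iff _).2 (h.t_mem_self i)
  rw [map_mul, map_inv₀, map_pow] at h1
  have hπ0 : (P i).O.valuation π ≠ 0 := (Valuation.ne_zero_iff _).2 h.π_ne
  have h2 : (P i).O.valuation (t i) ^ e i ≤ (P i).O.valuation π := by
    have := mul_le_mul_left h1 ((P i).O.valuation π)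
    rwa [inv_mul_cancel_right₀ hπ0, one_mul] at this
  by_contra hge
  have hge' : 1 ≤ (P i).O.valuation (t i) := not_lt.1 hge
  have : (1 : _) ≤ (P i).O.valuation (t i) ^ e i := one_le_pow₀ hge'
  exact absurd (lt_of_le_of_lt (this.trans h2) (h.π_lt i)) (lt_irrefl _)

theorem t_memO_self (i : ι) : t i ∈ (P i).O :=
  ((P i).O.valuation_le_one_iff _).1 (h.t_lt_self i).le

theorem t_red_self (i : ι) : (P i).redF (t i) = 0 := (P i).redF_eq_zero_of_lt (h.t_lt_self i)

/-- `t i` is integral on every component -/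
theorem t_memO (i j : ι) : t i ∈ (P j).O := by
  by_cases hj : j = i
  · subst hj
    exact h.t_memO_self j
  · exact h.t_mem_other i j hj

/-- `t i` is a unit of `O_j` for `j ≠ i` -/
theorem t_red_other (i j : ι) (hj : j ≠ i) : (P j).redF (t i) ≠ 0 := by
  obtain ⟨α, hα0, hα⟩ := h.R_value i
  have hne := (hα j).ne_zero hα0
  have htO : t i ∈ (P j).O := h.t_mem_other i j hj
  have hE : (P j).redF (E i) ≠ 0 := h.E_red_other i j hj
  rw [(P j).redF_mul ((P j).O.pow_mem htO _) ((P j).inv_mem_of_redF_ne_zero hE),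
    (P j).redF_pow htO] at hne
  intro h0
  have hpos : e i * m ≠ 0 := Nat.mul_ne_zero (h.e_pos i).ne' h.m_pos.ne'
  rw [h0, zero_pow hpos, zero_mul] at hne
  exact hne rfl

/-! ### the unit `U = (∏ᵢ tᵢ^{eᵢ}) / π` -/

theorem U_pow : ((∏ i, t i ^ e i) * π⁻¹) ^ m = ∏ i, (t i ^ (e i * m) * (E i)⁻¹) := by
  have key : ∏ i, (E i)⁻¹ = (π⁻¹) ^ m := by
    rw [Finset.prod_inv_distrib, h.E_mul, inv_pow]
  rw [Finset.prod_mul_distrib, key, mul_pow, ← Finset.prod_pow]
  congr 1
  exact Finset.prod_congr rfl fun i _ => (pow_mul (t i) (e i) m).symm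

theorem U_mem : (∏ i, t i ^ e i) * π⁻¹ ∈ S :=
  S.mul_mem (S.prod_mem fun i _ => S.pow_mem (h.t_mem i) _) h.π_inv_mem

theorem U_memO (j : ι) : (∏ i, t i ^ e i) * π⁻¹ ∈ (P j).O := by
  classical
  have hsplit : (∏ i, t i ^ e i) * π⁻¹ =
      (t j ^ e j * π⁻¹) * ∏ i ∈ Finset.univ.erase j, t i ^ e i := by
    rw [← Finset.mul_prod_erase Finset.univ (fun i => t i ^ e i) (Finset.mem_univ j)]
    ring
  rw [hsplit]
  refine (P j).O.mul_mem _ _ (h.t_mem_self j) ((P j).O.prod_mem fun i hi => ?_)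
  exact (P j).O.pow_mem (h.t_mem_other i j (Finset.ne_of_mem_erase hi).symm) _

/-- **(REG)**: `U = (∏ᵢ tᵢ^{eᵢ}) / π` has a NONZERO value at the multipoint (the same on all the
components): `π = unit · ∏ᵢ tᵢ^{eᵢ}` locally at the multipoint. -/
theorem main [Nonempty ι] : ∃ α : k, α ≠ 0 ∧
    ∀ j, HasValueAt (x j) ((P j).redF ((∏ i, t i ^ e i) * π⁻¹)) α := by
  obtain ⟨β, hβ⟩ := h.glue _ h.U_mem h.U_memO
  refine ⟨β, ?_, hβ⟩
  choose α hα0 hα using h.R_value
  obtain ⟨j⟩ := ‹Nonempty ι›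
  -- the value of `U ^ m` on the component `j`, computed in two ways
  have hpow : HasValueAt (x j) ((P j).redF (((∏ i, t i ^ e i) * π⁻¹) ^ m)) (β ^ m) := by
    rw [(P j).redF_pow (h.U_memO j)]
    exact (hβ j).pow m
  have hprod : HasValueAt (x j) ((P j).redF (((∏ i, t i ^ e i) * π⁻¹) ^ m)) (∏ i, α i) := by
    rw [h.U_pow, (P j).redF_prod _ _ fun i _ => h.R_memO i j]
    exact hasValueAt_prod (fun i _ => hα i j)
  have heq : β ^ m = ∏ i, α i := hpow.unique hprod
  rintro rfl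
  rw [zero_pow h.m_pos.ne'] at heq
  exact (Finset.prod_ne_zero_iff.2 fun i _ => hα0 i) heq.symm

/-- the reductions of `U` are nonzero: `U` is a multi-unit -/
theorem U_unit [Nonempty ι] (j : ι) : (P j).redF ((∏ i, t i ^ e i) * π⁻¹) ≠ 0 := by
  obtain ⟨α, hα, hv⟩ := h.main
  exact (hv j).ne_zero hα

end RegDataFam

end Fermat.Agent.S45lib.SS
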