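/-
S45lib / SS / RowsK  (helper4)  --  Project J, supersingular-point block of (KM)

THE RESTRICTION ROWS OF THE TOWER AT LEVEL `M q^k`, ABSTRACTLY (generalisation of helper8's
`S36lib/Reg/Rows`, which is the case `k = 2`).

Fields `F₀` (level `M`), `F₁` (level `M q`), `F` (level `M q^k`), ring homomorphisms
  `pos i  : F₀ →+* F`  (`y ↦ y(q^i z)`,  `0 ≤ i ≤ k`)   and
  `step i : F₁ →+* F`  (`g ↦ g(q^i z)`,  `0 ≤ i < k`),
places `W_M` of `F₀`, `W₁ W₂` of `F₁` (`v₁₀`, `v₀₁`), `P a` of `F` (`a : Fin (k+1)`, the component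
`(a, k - a)`: pattern `F^a V^(k-a)`), all with the same residue field `κ` (identified with the
function field of the DEEPEST curve of the chain: position `0` if `a ≥ k - a`, position `k` if
`a ≤ k - a`), and a ring endomorphism `V` of `κ` (`t ↦ t^q`).

* `dTw k a i`   : the twist exponent of position `i` on the component `a`
                  (`red_a (pos i y) = V^(dTw k a i) (red_M y)`);
* `RowsK`       : the rows  `P a ∘ pos i = V^(dTw k a i) ∘ W_M`,
                  `P a ∘ step i = V^(dTw k a i) ∘ W₁` (`i < a`, an `F`-step),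
                  `P a ∘ step i = V^(dTw k a (i+1)) ∘ W₂` (`a ≤ i`, a `V`-step);
* `UnitDataK`   : the two modular units `X Y = π₀^m` of level `M q`
                  (`red₁₀ (Y / π₀^m) = H⁻¹`, `red₀₁ Y = H`);
* `Xc`, `Ec`    : `Xc 0 = 1`, `Xc (i+1) = step i X`, `Xc (k+1) = π^m`;  `Ec a = Xc (a+1) / Xc a`:
                  units with "valuation" `m` on the component `a` and `0` on the others,
                  `∏ₐ Ec a = π^m`;
* the unit table (`Ec_red_other`, `Ec_red_self`, exact reductions on the two PURE components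
  `0 = (0,k)` and `k = (k,0)`);
* `tLoc`        : the local equations `t_a` (differences of `pos i τ`, `pos i τ″`), with
                  `red_a (t_a) = 0` and their reductions on the two pure components.
-/
import Mathlib
import Fermat.Agent.S36lib.Reg.Rows
import Fermat.Agent.S45lib.SS.RegFam

set_option autoImplicit false
set_option linter.unusedSectionVars false

noncomputable section

namespace Fermat.Agent.S45lib.SS

open AlgebraicCurve
open Fermat.Agent.LSb (HasValueAt)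
open Fermat.Agent.S36lib

/-! ### the twist exponents -/

/-- twist exponent of position `i` on the component `(a, k - a)`, relative to the deepest curve of
the chain `F^a V^(k-a)` -/
def dTw (k a i : ℕ) : ℕ :=
  if k ≤ 2 * a then (if i ≤ a then i else 2 * a - i)
  else (if i ≤ a then i + (k - 2 * a) else k - i)

/-- on the pure component `(k, 0)` all the steps are `F`-steps -/
theorem dTw_top (k i : ℕ) (hi : i ≤ k) : dTw k k i = i := by
  unfold dTw
  split_ifs <;> omega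

/-- on the pure component `(0, k)` all the steps are `V`-steps -/
theorem dTw_bot (k i : ℕ) (hi : i ≤ k) : dTw k 0 i = k - i := by
  unfold dTw
  split_ifs <;> omega

/-- position `0` is the deepest one on the components `a ≥ k - a` -/
theorem dTw_zero_of_le (k a : ℕ) (h : k ≤ 2 * a) : dTw k a 0 = 0 := by
  unfold dTw
  split_ifs <;> omega

/-- position `0` on the components `a < k - a` -/
theorem dTw_zero_of_lt (k a : ℕ) (h : 2 * a < k) : dTw k a 0 = k - 2 * a := by
  unfold dTw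
  split_ifs <;> omega

/-- position `k` on the components `a ≥ k - a` -/
theorem dTw_last_of_le (k a : ℕ) (h : k ≤ 2 * a) (ha : a ≤ k) : dTw k a k = 2 * a - k := by
  unfold dTw
  split_ifs <;> omega

/-- position `k` is the deepest one on the components `a ≤ k - a` -/
theorem dTw_last_of_lt (k a : ℕ) (h : 2 * a < k) : dTw k a k = 0 := by
  unfold dTw
  split_ifs <;> omega

/-- the two positions `2a - k` and `k` agree on the component `a ≥ k - a` -/
theorem dTw_self_of_le (k a : ℕ) (h : k ≤ 2 * a) (ha : a ≤ k) :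
    dTw k a (2 * a - k) = dTw k a k := by
  unfold dTw
  split_ifs <;> omega

/-- the two positions `0` and `2a` agree on the component `a < k - a` -/
theorem dTw_self_of_lt (k a : ℕ) (h : 2 * a < k) : dTw k a 0 = dTw k a (2 * a) := by
  unfold dTw
  split_ifs <;> omega

/-- an `F`-step raises the exponent by one -/
theorem dTw_succ_of_lt (k a i : ℕ) (hi : i < a) : dTw k a (i + 1) = dTw k a i + 1 := by
  unfold dTw
  split_ifs <;> omega

/-- a `V`-step lowers the exponent by one -/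
theorem dTw_succ_of_le (k a i : ℕ) (hi : a ≤ i) (hik : i < k) :
    dTw k a i = dTw k a (i + 1) + 1 := by
  unfold dTw
  split_ifs <;> omega

/-! ### orders of differences -/

section Ord

variable {K Fk : Type*} [Field K] [Field Fk] [Algebra K Fk] {Q : Place K Fk}

/-- the order of a difference of two functions of different orders -/
theorem ord_sub_eq_left {a b : Fk} (ha : a ≠ 0) (hb : b = 0 ∨ Q.ord a < Q.ord b) :
    Q.ord (a - b) = Q.ord a := by
  rcases hb with rfl | hb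
  · rw [sub_zero]
  have hne : a - b ≠ 0 := by
    intro h
    rw [sub_eq_zero.1 h] at hb
    exact lt_irrefl _ hb
  have h1 : a + -b = 0 ∨ Q.ord a ≤ Q.ord (a + -b) :=
    S18lib.Cech.ord_add_ge Q (Or.inr le_rfl) (Or.inr (by rw [S18lib.Cech.ord_neg]; omega))
  rw [← sub_eq_add_neg] at h1
  have h1' : Q.ord a ≤ Q.ord (a - b) := h1.resolve_left hne
  by_contra hne1
  have h2 : Q.ord a + 1 ≤ Q.ord (a - b) := by omega
  have h3 : (a - b) + b = 0 ∨ Q.ord a + 1 ≤ Q.ord ((a - b) + b) :=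
    S18lib.Cech.ord_add_ge Q (Or.inr h2) (Or.inr (by omega))
  rw [sub_add_cancel] at h3
  rcases h3 with h3 | h3
  · exact ha h3
  · omega

theorem ord_sub_eq_right {a b : Fk} (ha : a ≠ 0) (hb : b = 0 ∨ Q.ord a < Q.ord b) :
    Q.ord (b - a) = Q.ord a := by
  rw [← neg_sub, S18lib.Cech.ord_neg]
  exact ord_sub_eq_left ha hb

end Ord

/-! ### iterates of `V` -/

section Iter

variable {κ : Type*} [Field κ] (V : κ →+* κ)

theorem pow_succ_apply (n : ℕ) (z : κ) : (V ^ (n + 1)) z = (V ^ n) (V z) := by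
  rw [pow_succ, RingHom.mul_def, RingHom.comp_apply]

theorem pow_succ_apply' (n : ℕ) (z : κ) : (V ^ (n + 1)) z = V ((V ^ n) z) := by
  rw [pow_succ', RingHom.mul_def, RingHom.comp_apply]

theorem pow_zero_apply (z : κ) : (V ^ 0) z = z := by
  rw [pow_zero, RingHom.one_def, RingHom.id_apply]

/-- if `V H = H ^ q` then `V^n H = H ^ (q^n)` -/
theorem pow_apply_of_pow {H : κ} {q : ℕ} (hVH : V H = H ^ q) (n : ℕ) :
    (V ^ n) H = H ^ (q ^ n) := by
  induction n with
  | zero => rw [pow_zero_apply, pow_zero, pow_one]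
  | succ n ih => rw [pow_succ_apply', ih, map_pow, hVH, ← pow_mul, pow_succ']

end Iter

/-! ### the rows -/

variable {F₀ F₁ F κ : Type*} [Field F₀] [Field F₁] [Field F] [Field κ]

/-- **The restriction rows of the tower at level `M q^k`** (positions and steps). -/
structure RowsK (k : ℕ) (V : κ →+* κ) (pos : ℕ → F₀ →+* F) (step : ℕ → F₁ →+* F)
    (WM : Norm.Place F₀ κ) (W₁ W₂ : Norm.Place F₁ κ) (P : Fin (k + 1) → Norm.Place F κ) :
    Prop where
  /-- `y(q^i z)` on the component `a` -/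
  pos_row : ∀ i, i ≤ k → ∀ a : Fin (k + 1), Reg.Row (pos i) (V ^ dTw k a i) WM (P a)
  /-- `g(q^i z)` on the component `a`, the `i`-th step of which is an `F`-step -/
  stepF_row : ∀ i (a : Fin (k + 1)), i < (a : ℕ) → Reg.Row (step i) (V ^ dTw k a i) W₁ (P a)
  /-- `g(q^i z)` on the component `a`, the `i`-th step of which is a `V`-step -/
  stepV_row : ∀ i (a : Fin (k + 1)), (a : ℕ) ≤ i → i < k →
    Reg.Row (step i) (V ^ dTw k a (i + 1)) W₂ (P a)

/-- **The two modular units of level `M q`**: `X Y = π₀^m`, `Y / π₀^m` a unit of `W₁` with residue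
`H⁻¹`, `Y` a unit of `W₂` with residue `H`. -/
structure UnitDataK (W₁ W₂ : Norm.Place F₁ κ) (π₀ X Y : F₁) (H : κ) (m : ℕ) : Prop where
  π₀_ne : π₀ ≠ 0
  mul : X * Y = π₀ ^ m
  red₁ : W₁.redF (Y * (π₀ ^ m)⁻¹) = H⁻¹
  red₂ : W₂.redF Y = H
  H_ne : H ≠ 0

namespace UnitDataK

variable {W₁ W₂ : Norm.Place F₁ κ} {π₀ X Y : F₁} {H : κ} {m : ℕ}
variable (U : UnitDataK W₁ W₂ π₀ X Y H m)

include U

theorem πm_ne : π₀ ^ m ≠ 0 := pow_ne_zero m U.π₀_ne

theorem X_ne : X ≠ 0 := by
  rintro rfl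
  have := U.mul
  rw [zero_mul] at this
  exact U.πm_ne this.symm

theorem Y_ne : Y ≠ 0 := by
  rintro rfl
  have := U.mul
  rw [mul_zero] at this
  exact U.πm_ne this.symm

/-- `X` is a unit of `W₁` with residue `H` -/
theorem redX₁ : W₁.redF X = H := Reg.Rows.redF_X_of_Y U.π₀_ne U.mul U.red₁ U.H_ne

/-- `X / π₀^m` is a unit of `W₂` with residue `H⁻¹` -/
theorem redX₂ : X * (π₀ ^ m)⁻¹ ∈ W₂.O ∧ W₂.redF (X * (π₀ ^ m)⁻¹) = H⁻¹ :=
  Reg.Rows.redF_X_div_of_Y U.π₀_ne U.mul U.red₂ U.H_ne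

theorem X_inv : X⁻¹ = Y * (π₀ ^ m)⁻¹ := by
  have hX := U.X_ne
  have hY := U.Y_ne
  rw [← U.mul]
  field_simp

end UnitDataK

/-! ### reductions of quotients -/

section Quot

variable {P : Norm.Place F κ}

theorem redF_mul_inv {x y : F} (hx : x ∈ P.O) (hy : P.redF y ≠ 0) :
    P.redF (x * y⁻¹) = P.redF x * (P.redF y)⁻¹ := by
  rw [P.redF_mul hx (P.inv_mem_of_redF_ne_zero hy), P.redF_inv hy]

theorem redF_mul_inv_ne_zero {x y : F} (hx : P.redF x ≠ 0) (hy : P.redF y ≠ 0) :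
    P.redF (x * y⁻¹) ≠ 0 := by
  rw [redF_mul_inv (P.mem_of_redF_ne_zero hx) hy]
  exact mul_ne_zero hx (inv_ne_zero hy)

end Quot

/-! ### the chain of units -/

/-- `Xc 0 = 1`, `Xc (i+1) = step i X` (`i < k`), `Xc (k+1) = π^m` -/
def Xc (k : ℕ) (step : ℕ → F₁ →+* F) (X : F₁) (πm : F) : ℕ → F
  | 0 => 1
  | (i + 1) => if i < k then step i X else πm

/-- the unit of the component `a` -/
def Ec (k : ℕ) (step : ℕ → F₁ →+* F) (X : F₁) (πm : F) (a : ℕ) : F :=
  Xc k step X πm (a + 1) * (Xc k step X πm a)⁻¹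

theorem Xc_zero (k : ℕ) (step : ℕ → F₁ →+* F) (X : F₁) (πm : F) : Xc k step X πm 0 = 1 := rfl

theorem Xc_succ_of_lt {k : ℕ} (step : ℕ → F₁ →+* F) (X : F₁) (πm : F) {i : ℕ} (hi : i < k) :
    Xc k step X πm (i + 1) = step i X := by
  rw [Xc, if_pos hi]

theorem Xc_succ_of_le {k : ℕ} (step : ℕ → F₁ →+* F) (X : F₁) (πm : F) {i : ℕ} (hi : k ≤ i) :
    Xc k step X πm (i + 1) = πm := by
  rw [Xc, if_neg (by omega)]

theorem Xc_ne_zero {k : ℕ} (step : ℕ → F₁ →+* F) {X : F₁} {πm : F} (hX : X ≠ 0) (hπ : πm ≠ 0)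
    (j : ℕ) : Xc k step X πm j ≠ 0 := by
  cases j with
  | zero => rw [Xc_zero]; exact one_ne_zero
  | succ i =>
    by_cases hi : i < k
    · rw [Xc_succ_of_lt step X πm hi]
      exact (map_ne_zero (step i)).2 hX
    · rw [Xc_succ_of_le step X πm (by omega)]
      exact hπ

/-- the product of the units telescopes -/
theorem prod_Ec_range {k : ℕ} (step : ℕ → F₁ →+* F) {X : F₁} {πm : F} (hX : X ≠ 0) (hπ : πm ≠ 0)
    (n : ℕ) : ∏ a ∈ Finset.range n, Ec k step X πm a = Xc k step X πm n := by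
  induction n with
  | zero => rw [Finset.prod_range_zero, Xc_zero]
  | succ n ih =>
    rw [Finset.prod_range_succ, ih, Ec, mul_comm, mul_assoc,
      inv_mul_cancel₀ (Xc_ne_zero step hX hπ n), mul_one]

/-- `∏ₐ Ec a = π^m` -/
theorem prod_Ec {k : ℕ} (step : ℕ → F₁ →+* F) {X : F₁} {πm : F} (hX : X ≠ 0) (hπ : πm ≠ 0) :
    ∏ a : Fin (k + 1), Ec k step X πm (a : ℕ) = πm := by
  rw [Fin.prod_univ_eq_prod_range (fun a => Ec k step X πm a) (k + 1), prod_Ec_range step hX hπ,
    Xc_succ_of_le step X πm le_rfl]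

/-! ### the unit table -/

section Table

variable {k : ℕ} {V : κ →+* κ} {pos : ℕ → F₀ →+* F} {step : ℕ → F₁ →+* F}
variable {WM : Norm.Place F₀ κ} {W₁ W₂ : Norm.Place F₁ κ} {P : Fin (k + 1) → Norm.Place F κ}
variable {π₀ X Y : F₁} {H : κ} {m : ℕ} {π : F}

section Units

variable (T : RowsK k V pos step WM W₁ W₂ P) (U : UnitDataK W₁ W₂ π₀ X Y H m)
variable (hstep : ∀ i, i < k → step i π₀ = π) (hπ : π ≠ 0)

include T U hstep

omit T U in
/-- `step i (X / π₀^m) = step i X / π^m` -/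
theorem step_div (i : ℕ) (hi : i < k) :
    step i X * (π ^ m)⁻¹ = step i (X * (π₀ ^ m)⁻¹) := by
  rw [map_mul, map_inv₀, map_pow, hstep i hi]

omit hstep in
/-- the exact reduction of `Xc (i+1) = step i X` on a component whose `i`-th step is an
`F`-step -/
theorem redF_Xc_lo (a : Fin (k + 1)) (i : ℕ) (hi : i < (a : ℕ)) :
    (P a).redF (Xc k step X (π ^ m) (i + 1)) = (V ^ dTw k a i) H := by
  have hik : i < k := by have := a.2; omega
  have hX : W₁.redF X ≠ 0 := by rw [U.redX₁]; exact U.H_ne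
  rw [Xc_succ_of_lt step X _ hik, (T.stepF_row i a hi).red X (W₁.mem_of_redF_ne_zero hX),
    U.redX₁]

/-- the exact reduction of `Xc (i+1) / π^m` on a component whose `i`-th step is a `V`-step -/
theorem redF_Xc_hi (a : Fin (k + 1)) (i : ℕ) (hi : (a : ℕ) ≤ i) (hik : i < k) :
    (P a).redF (Xc k step X (π ^ m) (i + 1) * (π ^ m)⁻¹) = ((V ^ dTw k a (i + 1)) H)⁻¹ := by
  rw [Xc_succ_of_lt step X _ hik, step_div hstep i hik,
    (T.stepV_row i a hi hik).red _ U.redX₂.1, U.redX₂.2, map_inv₀]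

omit T U hstep in
include hπ in
theorem redF_Xc_last (a : Fin (k + 1)) :
    (P a).redF (Xc k step X (π ^ m) (k + 1) * (π ^ m)⁻¹) = 1 := by
  rw [Xc_succ_of_le step X _ le_rfl, mul_inv_cancel₀ (pow_ne_zero m hπ), (P a).redF_one]

omit hstep in
/-- `Xc j` is a unit of the component `a` for `j ≤ a` -/
theorem Xc_lo (a : Fin (k + 1)) (j : ℕ) (hj : j ≤ (a : ℕ)) :
    (P a).redF (Xc k step X (π ^ m) j) ≠ 0 := by
  cases j with
  | zero => rw [Xc_zero, (P a).redF_one]; exact one_ne_zero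
  | succ i =>
    rw [redF_Xc_lo T U a i hj]
    exact (map_ne_zero _).2 U.H_ne

include hπ in
/-- `Xc j / π^m` is a unit of the component `a` for `a < j ≤ k + 1` -/
theorem Xc_hi (a : Fin (k + 1)) (j : ℕ) (h1 : (a : ℕ) < j) (h2 : j ≤ k + 1) :
    (P a).redF (Xc k step X (π ^ m) j * (π ^ m)⁻¹) ≠ 0 := by
  cases j with
  | zero => omega
  | succ i =>
    by_cases hik : i < k
    · rw [redF_Xc_hi T U hstep a i (by omega) hik]
      exact inv_ne_zero ((map_ne_zero _).2 U.H_ne)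
    · have : i = k := by omega
      subst this
      rw [redF_Xc_last (P := P) hπ a]
      exact one_ne_zero

omit T U hstep in
include hπ in
/-- `Ec a` in terms of the `Xc j / π^m` -/
theorem Ec_eq_hi (a : ℕ) : Ec k step X (π ^ m) a =
    (Xc k step X (π ^ m) (a + 1) * (π ^ m)⁻¹) * (Xc k step X (π ^ m) a * (π ^ m)⁻¹)⁻¹ := by
  have h := pow_ne_zero m hπ
  rw [Ec, mul_inv, inv_inv]
  calc Xc k step X (π ^ m) (a + 1) * (Xc k step X (π ^ m) a)⁻¹
      = Xc k step X (π ^ m) (a + 1) * (Xc k step X (π ^ m) a)⁻¹ * ((π ^ m)⁻¹ * π ^ m) := by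
        rw [inv_mul_cancel₀ h, mul_one]
    _ = _ := by ring

omit hstep in
/-- `Ec a` is a unit of the components `a' > a` -/
theorem Ec_red_of_lt (a' : Fin (k + 1)) (a : ℕ) (h : a < (a' : ℕ)) :
    (P a').redF (Ec k step X (π ^ m) a) ≠ 0 :=
  redF_mul_inv_ne_zero (Xc_lo T U a' (a + 1) h) (Xc_lo T U a' a h.le)

include hπ in
/-- `Ec a` is a unit of the components `a' < a` -/
theorem Ec_red_of_gt (a' : Fin (k + 1)) (a : ℕ) (h : (a' : ℕ) < a) (hak : a ≤ k) :
    (P a').redF (Ec k step X (π ^ m) a) ≠ 0 := by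
  rw [Ec_eq_hi hπ]
  exact redF_mul_inv_ne_zero (Xc_hi T U hstep hπ a' (a + 1) (by omega) (by omega))
    (Xc_hi T U hstep hπ a' a h (by omega))

include hπ in
/-- `Ec a / π^m` is a unit of the component `a` -/
theorem Ec_red_self (a : Fin (k + 1)) :
    (P a).redF (Ec k step X (π ^ m) (a : ℕ) * (π ^ m)⁻¹) ≠ 0 := by
  have h : Ec k step X (π ^ m) (a : ℕ) * (π ^ m)⁻¹ =
      (Xc k step X (π ^ m) ((a : ℕ) + 1) * (π ^ m)⁻¹) * (Xc k step X (π ^ m) (a : ℕ))⁻¹ := by
    rw [Ec]; ring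
  rw [h]
  exact redF_mul_inv_ne_zero (Xc_hi T U hstep hπ a _ (Nat.lt_succ_self _) (by have := a.2; omega))
    (Xc_lo T U a _ le_rfl)

include hπ in
/-- `Ec a` is a unit of every other component -/
theorem Ec_red_other (a a' : Fin (k + 1)) (h : a' ≠ a) :
    (P a').redF (Ec k step X (π ^ m) (a : ℕ)) ≠ 0 := by
  rcases lt_or_gt_of_ne (fun h' => h (Fin.ext h') : (a' : ℕ) ≠ (a : ℕ)) with h1 | h1
  · exact Ec_red_of_gt T U hstep hπ a' a h1 (by have := a.2; omega)
  · exact Ec_red_of_lt T U a' a h1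

/-! #### exact reductions on the two pure components -/

include hπ in
/-- on the component `0 = (0, k)`: `red₀ (Ec a) = V^(k-a) H / V^(k-a-1) H` for `0 < a < k` -/
theorem redF_Ec_bot (a : ℕ) (ha : 0 < a) (hak : a < k) :
    (P 0).redF (Ec k step X (π ^ m) a) = (V ^ (k - a)) H * ((V ^ (k - a - 1)) H)⁻¹ := by
  obtain ⟨i, rfl⟩ : ∃ i, a = i + 1 := ⟨a - 1, by omega⟩
  have h0 : ((0 : Fin (k + 1)) : ℕ) = 0 := rfl
  have e1 := redF_Xc_hi T U hstep (0 : Fin (k + 1)) (i + 1) (by rw [h0]; omega) hak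
  have e2 := redF_Xc_hi T U hstep (0 : Fin (k + 1)) i (by rw [h0]; omega) (by omega)
  rw [h0, dTw_bot k _ (by omega)] at e1 e2
  have hne : (P 0).redF (Xc k step X (π ^ m) (i + 1) * (π ^ m)⁻¹) ≠ 0 := by
    rw [e2]; exact inv_ne_zero ((map_ne_zero _).2 U.H_ne)
  have hne1 : (P 0).redF (Xc k step X (π ^ m) (i + 1 + 1) * (π ^ m)⁻¹) ≠ 0 := by
    rw [e1]; exact inv_ne_zero ((map_ne_zero _).2 U.H_ne)
  rw [Ec_eq_hi hπ, redF_mul_inv ((P 0).mem_of_redF_ne_zero hne1) hne, e1, e2, inv_inv, mul_comm]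
  have : k - (i + 1 + 1) = k - (i + 1) - 1 := by omega
  rw [this]

include hπ in
/-- on the component `0 = (0, k)`: `red₀ (Ec k) = H` -/
theorem redF_Ec_bot_last (hk : 0 < k) : (P 0).redF (Ec k step X (π ^ m) k) = H := by
  obtain ⟨i, rfl⟩ : ∃ i, k = i + 1 := ⟨k - 1, by omega⟩
  have h0 : ((0 : Fin (i + 1 + 1)) : ℕ) = 0 := rfl
  have e2 := redF_Xc_hi T U hstep (0 : Fin (i + 1 + 1)) i (by rw [h0]; omega) (by omega)
  rw [h0, dTw_bot _ _ le_rfl, Nat.sub_self, pow_zero_apply] at e2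
  have hne : (P 0).redF (Xc (i + 1) step X (π ^ m) (i + 1) * (π ^ m)⁻¹) ≠ 0 := by
    rw [e2]; exact inv_ne_zero U.H_ne
  have e1 := redF_Xc_last (P := P) (step := step) (X := X) (m := m) hπ (0 : Fin (i + 1 + 1))
  rw [Ec_eq_hi hπ, redF_mul_inv ((P 0).mem_of_redF_ne_zero (by rw [e1]; exact one_ne_zero)) hne,
    e1, e2, inv_inv, one_mul]

omit hstep in
/-- on the component `k = (k, 0)`: `red_k (Ec 0) = H` -/
theorem redF_Ec_top_zero (hk : 0 < k) :
    (P (Fin.last k)).redF (Ec k step X (π ^ m) 0) = H := by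
  have e1 := redF_Xc_lo (π := π) T U (Fin.last k) 0 (by rw [Fin.val_last]; exact hk)
  rw [Fin.val_last, dTw_top k 0 (Nat.zero_le _), pow_zero_apply] at e1
  rw [Ec, Xc_zero, inv_one, mul_one, e1]

end Units

/-! #### the orders of the units on the two pure components -/

section UnitOrd

variable (T : RowsK k V pos step WM W₁ W₂ P) (U : UnitDataK W₁ W₂ π₀ X Y H m)
variable (hstep : ∀ i, i < k → step i π₀ = π) (hπ : π ≠ 0)
variable {k₀ : Type*} [Field k₀] [Algebra k₀ κ] (x : Place k₀ κ) {q : ℕ} (hq : q.Prime)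
variable (hVH : V H = H ^ q) (hoH : x.ord H = m)

include T U hstep hπ hq hVH hoH

/-- `ord_x red₀ (Ec a) = φ(q^(k-a)) · m` for `1 ≤ a ≤ k` -/
theorem ord_Ec_bot (a : ℕ) (ha : 0 < a) (hak : a ≤ k) :
    x.ord ((P 0).redF (Ec k step X (π ^ m) a)) = (Nat.totient (q ^ (k - a)) : ℤ) * m := by
  rcases Nat.lt_or_ge a k with hlt | hge
  · rw [redF_Ec_bot T U hstep hπ a ha hlt, pow_apply_of_pow V hVH, pow_apply_of_pow V hVH,
      Reg.ord_pow_mul_inv U.H_ne (pow_ne_zero _ U.H_ne), S18lib.Cech.ord_pow, hoH]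
    obtain ⟨b, hb⟩ : ∃ b, k - a = b + 1 := ⟨k - a - 1, by omega⟩
    rw [hb, Nat.totient_prime_pow hq (Nat.succ_pos b), Nat.add_sub_cancel]
    have h1 : 1 ≤ q := hq.one_le
    push_cast [Nat.cast_sub h1]
    ring
  · have : a = k := le_antisymm hak hge
    subst this
    rw [redF_Ec_bot_last T U hstep hπ ha, hoH, Nat.sub_self, pow_zero, Nat.totient_one]
    simp

omit hstep hπ hq hVH in
/-- `ord_x red_k (Ec 0) = m` -/
theorem ord_Ec_top_zero (hk : 0 < k) :
    x.ord ((P (Fin.last k)).redF (Ec k step X (π ^ m) 0)) = m := by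
  rw [redF_Ec_top_zero T U hk, hoH]

end UnitOrd

/-! ### the local equations -/

/-- **the local equation of the component `a`** at a multipoint: `τ` of level `M` with `τ̄` a local
parameter at the supersingular points, `τ″` a lift of `V τ̄`. -/
def tLoc (k : ℕ) (pos : ℕ → F₀ →+* F) (τ τ'' : F₀) (a : ℕ) : F :=
  if a = 0 then pos 0 τ - pos 1 τ''
  else if a = k then pos k τ - pos (k - 1) τ''
  else if k ≤ 2 * a then pos (2 * a - k) τ - pos k τ
  else pos 0 τ - pos (2 * a) τ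

section LocEq

variable (T : RowsK k V pos step WM W₁ W₂ P) {τ τ'' : F₀}
variable (hτ : τ ∈ WM.O) (hτ'' : τ'' ∈ WM.O) (hred : WM.redF τ'' = V (WM.redF τ))

include T

/-- the reduction of a difference of two pulled back functions of level `M` -/
theorem redF_pos_sub (a : Fin (k + 1)) {i j : ℕ} (hi : i ≤ k) (hj : j ≤ k) {y y' : F₀}
    (hy : y ∈ WM.O) (hy' : y' ∈ WM.O) :
    pos i y - pos j y' ∈ (P a).O ∧ (P a).redF (pos i y - pos j y') =
      (V ^ dTw k a i) (WM.redF y) - (V ^ dTw k a j) (WM.redF y') := by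
  have h1 := (T.pos_row i hi a).mem y hy
  have h2 := (T.pos_row j hj a).mem y' hy'
  refine ⟨(P a).O.sub_mem h1 h2, ?_⟩
  rw [(P a).redF_sub h1 h2, (T.pos_row i hi a).red y hy, (T.pos_row j hj a).red y' hy']

include hτ hτ''

/-- the local equations are integral on every component -/
theorem tLoc_mem (hk : 0 < k) (a' : Fin (k + 1)) (a : ℕ) (ha : a ≤ k) :
    tLoc k pos τ τ'' a ∈ (P a').O := by
  unfold tLoc
  split_ifs with h1 h2 h3
  · exact (redF_pos_sub T a' (Nat.zero_le _) hk hτ hτ'').1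
  · exact (redF_pos_sub T a' le_rfl (Nat.sub_le _ _) hτ hτ'').1
  · exact (redF_pos_sub T a' (by omega) le_rfl hτ hτ).1
  · exact (redF_pos_sub T a' (Nat.zero_le _) (by omega) hτ hτ).1

include hred

/-- **the local equation of the component `a` vanishes on the component `a`** -/
theorem tLoc_red_self (hk : 0 < k) (a : Fin (k + 1)) :
    (P a).redF (tLoc k pos τ τ'' (a : ℕ)) = 0 := by
  have hak : (a : ℕ) ≤ k := by have := a.2; omega
  unfold tLoc
  split_ifs with h1 h2 h3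
  · rw [(redF_pos_sub T a (Nat.zero_le _) hk hτ hτ'').2, hred, ← pow_succ_apply, h1,
      dTw_bot k 0 (Nat.zero_le _), dTw_bot k 1 hk, Nat.sub_zero, Nat.sub_add_cancel hk, sub_self]
  · rw [(redF_pos_sub T a le_rfl (Nat.sub_le _ _) hτ hτ'').2, hred, ← pow_succ_apply, h2,
      dTw_top k k le_rfl, dTw_top k (k - 1) (Nat.sub_le _ _), Nat.sub_add_cancel hk, sub_self]
  · rw [(redF_pos_sub T a (by omega) le_rfl hτ hτ).2, dTw_self_of_le k a h3 hak, sub_self]
  · rw [(redF_pos_sub T a (Nat.zero_le _) (by omega) hτ hτ).2, dTw_self_of_lt k a (by omega),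
      sub_self]

/-! #### reductions of the local equations on the two pure components -/

/-- on the component `0 = (0, k)`, for `a = k` -/
theorem redF_tLoc_bot_last (hk : 0 < k) :
    (P 0).redF (tLoc k pos τ τ'' k) = (V ^ 0) (WM.redF τ) - (V ^ 2) (WM.redF τ) := by
  have h0 : ((0 : Fin (k + 1)) : ℕ) = 0 := rfl
  unfold tLoc
  rw [if_neg hk.ne', if_pos rfl, (redF_pos_sub T 0 le_rfl (Nat.sub_le _ _) hτ hτ'').2, hred,
    ← pow_succ_apply, h0, dTw_bot k k le_rfl, dTw_bot k (k - 1) (Nat.sub_le _ _), Nat.sub_self]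
  have : k - (k - 1) + 1 = 2 := by omega
  rw [this]

/-- on the component `0 = (0, k)`, for `0 < a < k`, `k ≤ 2a` -/
theorem redF_tLoc_bot_of_le (a : ℕ) (ha : 0 < a) (hak : a < k) (h : k ≤ 2 * a) :
    (P 0).redF (tLoc k pos τ τ'' a) =
      (V ^ (2 * k - 2 * a)) (WM.redF τ) - (V ^ 0) (WM.redF τ) := by
  have h0 : ((0 : Fin (k + 1)) : ℕ) = 0 := rfl
  unfold tLoc
  rw [if_neg ha.ne', if_neg hak.ne, if_pos h, (redF_pos_sub T 0 (by omega) le_rfl hτ hτ).2, h0,
    dTw_bot k k le_rfl, dTw_bot k _ (by omega), Nat.sub_self]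
  have : k - (2 * a - k) = 2 * k - 2 * a := by omega
  rw [this]

/-- on the component `0 = (0, k)`, for `0 < a`, `2a < k` -/
theorem redF_tLoc_bot_of_lt (a : ℕ) (ha : 0 < a) (h : 2 * a < k) :
    (P 0).redF (tLoc k pos τ τ'' a) =
      (V ^ k) (WM.redF τ) - (V ^ (k - 2 * a)) (WM.redF τ) := by
  have h0 : ((0 : Fin (k + 1)) : ℕ) = 0 := rfl
  unfold tLoc
  rw [if_neg ha.ne', if_neg (by omega), if_neg (by omega),
    (redF_pos_sub T 0 (Nat.zero_le _) (by omega) hτ hτ).2, h0, dTw_bot k 0 (Nat.zero_le _),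
    dTw_bot k _ (by omega), Nat.sub_zero]

/-- on the component `k = (k, 0)`, for `a = 0` -/
theorem redF_tLoc_top_zero (hk : 0 < k) :
    (P (Fin.last k)).redF (tLoc k pos τ τ'' 0) = (V ^ 0) (WM.redF τ) - (V ^ 2) (WM.redF τ) := by
  unfold tLoc
  rw [if_pos rfl, (redF_pos_sub T (Fin.last k) (Nat.zero_le _) hk hτ hτ'').2, hred,
    ← pow_succ_apply, Fin.val_last, dTw_top k 0 (Nat.zero_le _), dTw_top k 1 hk]

end LocEq

/-! #### the orders of the local equations on the two pure components -/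

section LocOrd

variable {k₀ : Type*} [Field k₀] [Algebra k₀ κ] (x : Place k₀ κ) {q : ℕ} (hq : 1 < q) {τb : κ}
variable (hoτ : ∀ n, x.ord ((V ^ n) τb) = (q : ℤ) ^ n)

include hq hoτ

/-- `ord_x (V^n τ̄ - V^n' τ̄) = q^n` for `n < n'` -/
theorem ord_pow_sub_pow {n n' : ℕ} (h : n < n') :
    x.ord ((V ^ n) τb - (V ^ n') τb) = (q : ℤ) ^ n := by
  have hq0 : (0 : ℤ) < q := by exact_mod_cast (by omega : 0 < q)
  have hne : (V ^ n) τb ≠ 0 :=
    Reg.ne_zero_of_ord_ne_zero (Q := x) (by rw [hoτ n]; exact (pow_pos hq0 n).ne')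
  rw [ord_sub_eq_left hne (Or.inr ?_), hoτ n]
  rw [hoτ n, hoτ n']
  exact_mod_cast Nat.pow_lt_pow_right hq h

theorem ord_pow_sub_pow' {n n' : ℕ} (h : n < n') :
    x.ord ((V ^ n') τb - (V ^ n) τb) = (q : ℤ) ^ n := by
  rw [← neg_sub, S18lib.Cech.ord_neg]
  exact ord_pow_sub_pow x hq hoτ h

end LocOrd

end Table

end Fermat.Agent.S45lib.SS
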