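/-
S45lib / SS / GlueK  (helper4)  --  Project J, supersingular-point block of (KM)

**(GLUE) at a multipoint of level `M q^k` from the restriction rows** (`SS.RowsK`): a STAR of links
with root the pure component `k = (k, 0)` (deepest position `0`, all the steps are `F`-steps).

For `h` in the ball and `B ≠ k`:  `z = red_k h` lifts to `y` of level `M` (regular off the cusps),
`f = pos 0 y = y(z)` has `red_k f = z`, `red_B f = V^(dTw k B 0) z`, and `h - f` vanishes on the
component `k`, hence `(h - f)^n / E_k` is in the ball for `n ≫ 0`, where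
`E_k = step (k-1) Y` (`v_k = m`, unit elsewhere, `red_B E_k = V^(dTw k B k) H` vanishes at the
multipoint).  So the value of `red_B h` at `x_B` is the value of `V^(dTw k B 0) z` there, which is
the value of `z = red_k h` at `x_k` if `x_k = Fr^(dTw k B 0) (x_B)` (hypothesis `hxV`).

Inputs beyond the rows: (CHART) on the root component only (`hchart`), regularity of the
reductions at the multipoint (`hreg`), the level `M` lifting (`hlift₀`), rank one of `O_k`.
-/
import Mathlib
import Fermat.Agent.S45lib.SS.GlueFam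
import Fermat.Agent.S45lib.SS.RowsK

set_option autoImplicit false
set_option linter.unusedSectionVars false

noncomputable section

namespace Fermat.Agent.S45lib.SS

open AlgebraicCurve
open Fermat.Agent.LSb (HasValueAt)
open Fermat.Agent.S36lib

variable {F₀ F₁ F κ : Type*} [Field F₀] [Field F₁] [Field F] [Field κ]
variable {k : ℕ} {V : κ →+* κ} {pos : ℕ → F₀ →+* F} {step : ℕ → F₁ →+* F}
variable {WM : Norm.Place F₀ κ} {W₁ W₂ : Norm.Place F₁ κ} {P : Fin (k + 1) → Norm.Place F κ}
variable {π₀ X Y : F₁} {H : κ} {m : ℕ}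

/-- the reduction of `E_k = step (k-1) Y` on the components `B ≠ k` -/
theorem redF_step_last_Y (T : RowsK k V pos step WM W₁ W₂ P) (U : UnitDataK W₁ W₂ π₀ X Y H m)
    (hk : 0 < k) (B : Fin (k + 1)) (hB : B ≠ Fin.last k) :
    (P B).redF (step (k - 1) Y) = (V ^ dTw k B k) H := by
  have hBk : (B : ℕ) ≤ k - 1 := by
    have h1 : (B : ℕ) ≠ k := fun h => hB (Fin.ext (by rw [Fin.val_last]; exact h))
    have := B.2
    omega
  have hrow := T.stepV_row (k - 1) B hBk (by omega)
  rw [Nat.sub_add_cancel hk] at hrow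
  have hY : W₂.redF Y ≠ 0 := by rw [U.red₂]; exact U.H_ne
  rw [hrow.red Y (W₂.mem_of_redF_ne_zero hY), U.red₂]

/-- **(GLUE) at a multipoint of level `M q^k` from the rows.** -/
theorem glueAtFam_of_rowsK (T : RowsK k V pos step WM W₁ W₂ P)
    (U : UnitDataK W₁ W₂ π₀ X Y H m) (hk : 0 < k)
    {k₀ : Type*} [Field k₀] [Algebra k₀ κ] (x : Fin (k + 1) → Place k₀ κ)
    (hdeg : (x (Fin.last k)).deg = 1)
    (S : Subring F) (S₀ : Subring F₀) (R₀ : Subring κ)
    (hS₀ : ∀ y ∈ S₀, pos 0 y ∈ S)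
    (hchart : ∀ f ∈ ballFam S P, (P (Fin.last k)).redF f ∈ R₀)
    (hreg : ∀ i, ∀ f ∈ ballFam S P, (P i).redF f ∈ (x i).toValuationSubring)
    (hlift₀ : ∀ z ∈ R₀, ∃ y ∈ S₀, y ∈ WM.O ∧ WM.redF y = z)
    (harch : Norm.IsArch (P (Fin.last k)).O)
    (hYS : (step (k - 1) Y)⁻¹ ∈ S)
    (hxV : ∀ (B : Fin (k + 1)) (z : κ) (α : k₀), HasValueAt (x (Fin.last k)) z α →
      HasValueAt (x B) ((V ^ dTw k B 0) z) α)
    (hHx : ∀ (B : Fin (k + 1)) (n : ℕ), (x B).adicValuation ((V ^ n) H) < 1) :
    GlueAtFam P x (S : Set F) := by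
  refine glueAtFam_of_links S P x (Fin.last k) hdeg hreg fun B => ?_
  by_cases hB : B = Fin.last k
  · subst hB
    exact Relation.ReflTransGen.refl
  · refine Relation.ReflTransGen.single ?_
    have hredB := redF_step_last_Y T U hk
    have hVH : ∀ n, (V ^ n) H ≠ 0 := fun n => (map_ne_zero _).2 U.H_ne
    refine isLink_of_unit S P x (V ^ dTw k B 0) (hxV B) ?_ harch (Y := step (k - 1) Y)
      ((map_ne_zero _).2 U.Y_ne) hYS ?_ ?_ ?_
    · -- the lifts `y(z)`
      intro h hh
      obtain ⟨y, hyS, hyO, hyr⟩ := hlift₀ _ (hchart h hh)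
      refine ⟨pos 0 y, mem_ballFam.2 ⟨hS₀ y hyS, fun i =>
        (T.pos_row 0 (Nat.zero_le _) i).mem y hyO⟩, ?_, ?_⟩
      · rw [(T.pos_row 0 (Nat.zero_le _) (Fin.last k)).red y hyO, hyr, Fin.val_last,
          dTw_top k 0 (Nat.zero_le _), pow_zero_apply]
      · rw [(T.pos_row 0 (Nat.zero_le _) B).red y hyO, hyr]
    · intro i hi
      exact (P i).inv_mem_of_redF_ne_zero (by rw [hredB i hi]; exact hVH _)
    · exact (P B).mem_of_redF_ne_zero (by rw [hredB B hB]; exact hVH _)
    · rw [hredB B hB]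
      exact hHx B _

end Fermat.Agent.S45lib.SS
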