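/-
S45lib / SS / MGlue  (helper4)  --  Project J, supersingular-point block of (KM)

**The field `glue` of helper6's `MThick.MCtx` from (GLUE) for a test ring** (generalisation of
`S36lib/Fin/GlueField.glue_field`):  if the reductions of the functions of a subring `S`
(the cusp ring: functions regular off the cusps) which are integral on all the components have a
common value at every multipoint (`SS.GlueAtFam`, e.g. from `SS.glueAtFam_of_rowsK`), and
`f · w^b ∈ S` for `f ∈ 𝓛 a b`, where `w ∈ S ∩ O` is a unit at the multipoints on ONE component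
(`w = j - c₀`), then `G.GlueR D` (= `MCtx.glue`) holds.
-/
import Mathlib
import Fermat.Agent.S45lib.SS.GlueFam
import Fermat.Agent.S45lib.G.Twist

set_option autoImplicit false
set_option linter.unusedSectionVars false

noncomputable section

namespace Fermat.Agent.S45lib.SS

open AlgebraicCurve
open Fermat.Agent.LSb (HasValueAt)
open Fermat.Agent.S45lib.MThick

variable {K : Type*} [Field K] {R : ValuationSubring K}
variable {F : Type*} [Field F] [Algebra K F]
variable {ι : Type*} {Fk : ι → Type*} [∀ i, Field (Fk i)]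
variable [∀ i, Algebra (IsLocalRing.ResidueField R) (Fk i)]

/-- **`MCtx.glue` from (GLUE) on a test ring and a chart function.** -/
theorem glueR_of_glueAtFam (D : MDatum R F ι Fk) (S : Subring F)
    (hG : ∀ c, GlueAtFam (fun i => G.placeOf D i) (fun i => D.x i c) (S : Set F))
    {w : F} (hwS : w ∈ S) (hwO : w ∈ D.O) (i₀ : ι) (hwred : D.redF i₀ w ≠ 0)
    (hxw : ∀ c, (D.redF i₀ w)⁻¹ ∈ (D.x i₀ c).toValuationSubring)
    (h𝓛 : ∀ (a b : ℕ) (f : F), f ∈ D.𝓛 a b → f * w ^ b ∈ S) :
    G.GlueR D := by
  intro a b f hf hO c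
  exact (hG c).of_mul_pow hwS (fun i => MDatum.mem_O.1 hwO i) i₀ hwred (hxw c) b (h𝓛 a b f hf)
    (fun i => MDatum.mem_O.1 hO i)

end Fermat.Agent.S45lib.SS
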