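/-
S45lib / SS / GlueB  (helper4)  --  Project J, supersingular-point block of (KM)

**(GLUE) for a multi-component datum indexed by the number `i = b` of `V`-steps** (the convention
of the project; `a = k - i`): `SS.glueAtFam_of_rowsK` transported through `Fin.rev`, and the field
`glue` of `MThick.MCtx` (`G.GlueR D`).

Multipoint convention (hypothesis `hxV`): `x_i(c) = Fr^((2i-k)⁺) x_0(c)`, i.e.
`HasValueAt (D.x 0 c) z α → HasValueAt (D.x i c) ((V ^ (2 * i - k)) z) α`
(truncated subtraction; component `0 = (k, 0)` is the root of the star).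
-/
import Mathlib
import Fermat.Agent.S45lib.SS.GlueK
import Fermat.Agent.S45lib.SS.MGlue

set_option autoImplicit false
set_option linter.unusedSectionVars false

noncomputable section

namespace Fermat.Agent.S45lib.SS

open AlgebraicCurve
open Fermat.Agent.LSb (HasValueAt)
open Fermat.Agent.S36lib
open Fermat.Agent.S45lib.MThick

/-- (GLUE) is invariant under a bijective change of the index set -/
theorem GlueAtFam.reindex {F : Type*} [Field F] {k₀ : Type*} [Field k₀]
    {ι ι' : Type*} {κ : ι → Type*} [∀ i, Field (κ i)] [∀ i, Algebra k₀ (κ i)] (e : ι' ≃ ι)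
    {P : ∀ i, Norm.Place F (κ i)} {x : ∀ i, Place k₀ (κ i)} {S : Set F}
    (h : GlueAtFam (fun i' => P (e i')) (fun i' => x (e i')) S) : GlueAtFam P x S := by
  intro f hf hO
  obtain ⟨α, hα⟩ := h f hf (fun i' => hO (e i'))
  exact ⟨α, (e.forall_congr_right (q := fun i => HasValueAt (x i) ((P i).redF f) α)).1 hα⟩

/-- the twist exponent of position `0` on the component with `i` `V`-steps -/
theorem dTw_rev_zero (k : ℕ) (i : Fin (k + 1)) :
    dTw k ((Fin.rev i : Fin (k + 1)) : ℕ) 0 = 2 * (i : ℕ) - k := by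
  have hi : (i : ℕ) ≤ k := by have := i.2; omega
  rw [Fin.val_rev]
  unfold dTw
  split_ifs <;> omega

variable {K : Type*} [Field K] {R : ValuationSubring K}
variable {F : Type*} [Field F] [Algebra K F]
variable {κ : Type*} [Field κ] [Algebra (IsLocalRing.ResidueField R) κ]
variable {F₀ F₁ : Type*} [Field F₀] [Field F₁]
variable {k : ℕ} {V : κ →+* κ} {pos : ℕ → F₀ →+* F} {step : ℕ → F₁ →+* F}
variable {WM : Norm.Place F₀ κ} {W₁ W₂ : Norm.Place F₁ κ}
variable {π₀ X Y : F₁} {H : κ} {m : ℕ}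

/-- **(GLUE) on a test ring for a datum indexed by the number of `V`-steps.** -/
theorem glueAtFam_of_rowsK_rev (D : MDatum R F (Fin (k + 1)) (fun _ => κ))
    (T : RowsK k V pos step WM W₁ W₂ (fun a => G.placeOf D (Fin.rev a)))
    (U : UnitDataK W₁ W₂ π₀ X Y H m) (hk : 0 < k) (c : Fin D.s)
    (hdeg : (D.x 0 c).deg = 1)
    (S : Subring F) (S₀ : Subring F₀) (R₀ : Subring κ)
    (hS₀ : ∀ y ∈ S₀, pos 0 y ∈ S)
    (hchart : ∀ f ∈ S, f ∈ D.O → D.redF 0 f ∈ R₀)
    (hreg : ∀ i, ∀ f ∈ S, f ∈ D.O → D.redF i f ∈ (D.x i c).toValuationSubring)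
    (hlift₀ : ∀ z ∈ R₀, ∃ y ∈ S₀, y ∈ WM.O ∧ WM.redF y = z)
    (harch : Norm.IsArch (D.V 0).O)
    (hYS : (step (k - 1) Y)⁻¹ ∈ S)
    (hxV : ∀ (i : Fin (k + 1)) (z : κ) (α : IsLocalRing.ResidueField R),
      HasValueAt (D.x 0 c) z α → HasValueAt (D.x i c) ((V ^ (2 * (i : ℕ) - k)) z) α)
    (hHx : ∀ (i : Fin (k + 1)) (n : ℕ), (D.x i c).adicValuation ((V ^ n) H) < 1) :
    GlueAtFam (fun i => G.placeOf D i) (fun i => D.x i c) (S : Set F) := by
  have hrev0 : Fin.rev (Fin.last k) = (0 : Fin (k + 1)) := Fin.rev_last k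
  have hball : ∀ f, f ∈ ballFam S (fun a : Fin (k + 1) => G.placeOf D (Fin.rev a)) →
      f ∈ S ∧ f ∈ D.O := by
    intro f hf
    obtain ⟨h1, h2⟩ := mem_ballFam.1 hf
    refine ⟨h1, MDatum.mem_O.2 fun i => ?_⟩
    have := h2 (Fin.rev i)
    rwa [Fin.rev_rev] at this
  refine GlueAtFam.reindex Fin.revPerm ?_
  refine glueAtFam_of_rowsK T U hk (fun a => D.x (Fin.rev a) c) ?_ S S₀ R₀ hS₀ ?_ ?_ hlift₀ ?_ hYS
    ?_ ?_
  · show (D.x (Fin.rev (Fin.last k)) c).deg = 1
    rw [hrev0]; exact hdeg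
  · intro f hf
    obtain ⟨h1, h2⟩ := hball f hf
    show (G.placeOf D (Fin.rev (Fin.last k))).redF f ∈ R₀
    rw [hrev0]
    exact hchart f h1 h2
  · intro a f hf
    obtain ⟨h1, h2⟩ := hball f hf
    exact hreg (Fin.rev a) f h1 h2
  · show Norm.IsArch (G.placeOf D (Fin.rev (Fin.last k))).O
    rw [hrev0]; exact harch
  · intro B z α hα
    have h1 : HasValueAt (D.x 0 c) z α := by
      have : D.x (Fin.rev (Fin.last k)) c = D.x 0 c := by rw [hrev0]
      rw [← this]; exact hα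
    have h2 := hxV (Fin.rev B) z α h1
    have h3 := dTw_rev_zero k (Fin.rev B)
    rw [Fin.rev_rev] at h3
    rw [h3]
    exact h2
  · intro B n
    exact hHx (Fin.rev B) n

end Fermat.Agent.S45lib.SS
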