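/-
S45lib / SS / Points  (helper8)  --  Project J, THE MULTIPOINTS OF LEVEL `M q^k`

`κ = FRes A M`, `V = VqR hA` (`t ↦ t^q`), `kA = ResidueField A`, `kW = ResidueField (Wfix A)`,
`P_c = Inst.triplePt M q A hqM hA c` (the supersingular places of `κ`, over `kW`).

Everything here is INSTANCE-FREE (no `HasPrincipalDivisors` hypotheses: they are supplied inside).

* `ssPerm`   : the permutation `cα` of the supersingular points induced by Frobenius
               (`ssPt (cα c) = Fr (ssPt c)`, main's `J.nodeAlpha`); `ssPerm_ssPerm : cα (cα c) = c`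
               (the supersingular points are rational over the field with `q²` elements);
* `ptN n c`  := `triplePt ((cα)^[n] c)` (`= Fr^n P_c`);
* **`xK k i c := ptN (2 * i - k) c`** (truncated subtraction; `i = b` = the number of `V`-steps of the
  component `(a, b) = (k - i, i)` of the reduction of level `M q^k`): THE multipoints;
* (P1) values : `HasValueAt (ptN (n + 1) c) z α ↔ HasValueAt (ptN n c) (V z) α`,
               `HasValueAt (ptN (n + 1) c) (V z) α ↔ HasValueAt (ptN n c) z α`,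
               iterated (`hasValueAt_ptN_add_iff`, `hasValueAt_ptN_add_iff'`) and in particular
               `HasValueAt (triplePt c) z α → HasValueAt (ptN n c) ((V ^ n) z) α`;
* (P2) `H = H₂ nodeD1` : `(ptN n c).ord H = 12` (auxiliary level), `(V ^ n) H = H ^ q ^ n`,
               `(ptN n c).adicValuation ((V ^ n') H) < 1`;
* (P3) orders : `(ptN n c).ord ((V ^ n') z) = q ^ n' * (ptN (n + n') c).ord z`, and for a function `z`
               of order one at all the supersingular points `(ptN n c).ord ((V ^ n') z) = q ^ n'`;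
               `exists_tauK` : such a `z = red τ` exists (`Desc2.exists_tau_triplePt`);
* (P4) `(ptN n c).deg = 1`, `ptN n` injective, `j̄` regular at `ptN n c`.
All of them restated for `xK`.
* values of the coefficientwise Frobenius `Norm.frobCoeffM` (residue norm of the `V`-fibres):
  `hasValueAt_frobCoeffM_ptN_succ/pred`;
* the multipoints of two consecutive levels (field `val` of the two norm contexts, `cN_α = id`,
  `cN_β = ssPerm`): `xK_alpha_of_le`, `hasValueAt_xK_alpha_of_lt`, `xK_beta_of_le`,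
  `hasValueAt_xK_beta_of_lt`; in the shape of the field `pt` of `Chain.StepDataK`:
  `pt_xK_alpha_of_lt`, `pt_xK_beta_of_lt`.
-/
import Fermat.Agent.S36lib.J.FrobSq
import Fermat.Agent.S36lib.J.TripleOrd
import Fermat.Agent.S36lib.Reg.FrobOrd
import Fermat.Agent.S36lib.Inst.Ctx
import Fermat.Agent.S36lib.Desc2.Tau
import Fermat.Agent.S36lib.Norm.ResInst

set_option autoImplicit false
set_option linter.unusedSectionVars false
set_option linter.unusedVariables false
set_option linter.style.haveILetI false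

noncomputable section

namespace Fermat.Agent.S45lib.SS

open AlgebraicCurve ModularCurve IsLocalRing
open Fermat.Agent.S18lib Fermat.Agent.ProgramR
open Fermat.Agent.LSb (HasValueAt)
open Fermat.Agent.LSb.Unit (VqR)
open Fermat.Agent.S36lib Fermat.Agent.S36lib.Inst Fermat.Agent.S36lib.Desc

local notation "Qb" => AlgebraicClosure ℚ

/-! ### powers of a ring endomorphism -/

section EndPow

variable {κ : Type*} [Semiring κ]

theorem endPow_zero (V : κ →+* κ) (z : κ) : (V ^ 0) z = z := by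
  rw [pow_zero]; rfl

theorem endPow_succ (V : κ →+* κ) (n : ℕ) (z : κ) : (V ^ (n + 1)) z = V ((V ^ n) z) := by
  rw [pow_succ']; rfl

theorem endPow_succ' (V : κ →+* κ) (n : ℕ) (z : κ) : (V ^ (n + 1)) z = (V ^ n) (V z) := by
  rw [pow_succ]; rfl

theorem endPow_add (V : κ →+* κ) (m n : ℕ) (z : κ) : (V ^ (m + n)) z = (V ^ m) ((V ^ n) z) := by
  rw [pow_add]; rfl

/-- if `V H = H ^ q` then `V^n H = H ^ q^n` -/
theorem endPow_of_pow {κ : Type*} [CommSemiring κ] (V : κ →+* κ) {H : κ} {q : ℕ}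
    (hV : V H = H ^ q) (n : ℕ) : (V ^ n) H = H ^ q ^ n := by
  induction n with
  | zero => rw [endPow_zero, pow_zero, pow_one]
  | succ n ih => rw [endPow_succ, ih, map_pow, hV, ← pow_mul, pow_succ']

end EndPow

section Points

variable (M q : ℕ) [NeZero M] [NeZero q] [hq : Fact q.Prime] (A : ValuationSubring Qb)
  (hqM : ¬ q ∣ M) (hA : A.LiesOverPrime q)

local notation "kA" => IsLocalRing.ResidueField A
local notation "kW" => IsLocalRing.ResidueField (Wfix A)

include hqM hA in
/-- principal divisors on the reduction `FRes A M` (so that nothing below carries instances) -/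
theorem hasPrincipalDivisors_FRes : HasPrincipalDivisors kA (FRes A M) := by
  obtain ⟨g, hF, hFk⟩ := S37lib.B3.exists_genus_level M A hqM hA
    (S37lib.B3.reductionInputsModL M A hqM hA)
  exact hFk.hasPrincipalDivisors

include hqM hA in
/-- the genus of the reduction -/
theorem exists_genus_FRes : ∃ gM : ℕ, IsCurveOfGenus kA (FRes A M) gM := by
  obtain ⟨g, hF, hFk⟩ := S37lib.B3.exists_genus_level M A hqM hA
    (S37lib.B3.reductionInputsModL M A hqM hA)
  exact ⟨g, hFk⟩

/-! ### the Frobenius permutation of the supersingular points -/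

/-- **the permutation `cα` of the supersingular points induced by Frobenius**:
`ssPt (cα c) = Fr (ssPt c)` -/
def ssPerm : Fin (nS M q A hqM hA) → Fin (nS M q A hqM hA) :=
  haveI := S37lib.HeckeInst.hasPrincipalDivisors_FB M
  haveI := S37lib.HeckeInst.hasPrincipalDivisors_FB (M * q)
  haveI := hasPrincipalDivisors_FRes M q A hqM hA
  J.nodeAlpha hA (isGaussOne_nodeD1 M q A hqM hA)

theorem ssPt_ssPerm (c : Fin (nS M q A hqM hA)) :
    ssPt M q A hqM hA (ssPerm M q A hqM hA c) = J.frobP hA (ssPt M q A hqM hA c) := by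
  haveI := S37lib.HeckeInst.hasPrincipalDivisors_FB M
  haveI := S37lib.HeckeInst.hasPrincipalDivisors_FB (M * q)
  haveI := hasPrincipalDivisors_FRes M q A hqM hA
  exact J.modX₂_nodeAlpha hA (isGaussOne_nodeD1 M q A hqM hA) c

/-- `Fr (ssPt (cα c)) = ssPt c`: the square of Frobenius fixes the supersingular points -/
theorem frobP_ssPt_ssPerm (c : Fin (nS M q A hqM hA)) :
    J.frobP hA (ssPt M q A hqM hA (ssPerm M q A hqM hA c)) = ssPt M q A hqM hA c := by
  haveI := S37lib.HeckeInst.hasPrincipalDivisors_FB M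
  haveI := S37lib.HeckeInst.hasPrincipalDivisors_FB (M * q)
  haveI := hasPrincipalDivisors_FRes M q A hqM hA
  obtain ⟨gM, hFk⟩ := exists_genus_FRes M q A hqM hA
  exact J.modX₁_nodeAlpha hqM hA (isGaussOne_nodeD1 M q A hqM hA)
    (LSb.Val.isGaussTwo_gaussTwo M q A hqM hA) hFk c

theorem ssPerm_ssPerm (c : Fin (nS M q A hqM hA)) :
    ssPerm M q A hqM hA (ssPerm M q A hqM hA c) = c := by
  have h : ssPt M q A hqM hA (ssPerm M q A hqM hA (ssPerm M q A hqM hA c)) =
      ssPt M q A hqM hA c := by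
    rw [ssPt_ssPerm, frobP_ssPt_ssPerm]
  haveI := S37lib.HeckeInst.hasPrincipalDivisors_FB (M * q)
  haveI := hasPrincipalDivisors_FRes M q A hqM hA
  exact LSb.Unit.modX₂_injective h

theorem ssPerm_involutive : Function.Involutive (ssPerm M q A hqM hA) :=
  ssPerm_ssPerm M q A hqM hA

theorem ssPerm_injective : Function.Injective (ssPerm M q A hqM hA) :=
  (ssPerm_involutive M q A hqM hA).injective

theorem ssPerm_bijective : Function.Bijective (ssPerm M q A hqM hA) :=
  (ssPerm_involutive M q A hqM hA).bijective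

theorem ssPerm_iterate_injective (n : ℕ) : Function.Injective ((ssPerm M q A hqM hA)^[n]) :=
  (ssPerm_injective M q A hqM hA).iterate n

theorem ssPerm_iterate_add_two (n : ℕ) (c : Fin (nS M q A hqM hA)) :
    (ssPerm M q A hqM hA)^[n + 2] c = (ssPerm M q A hqM hA)^[n] c := by
  rw [Function.iterate_add_apply]
  show (ssPerm M q A hqM hA)^[n] (ssPerm M q A hqM hA (ssPerm M q A hqM hA c)) = _
  rw [ssPerm_ssPerm]

/-! ### the points `Fr^n P_c` -/

/-- **`ptN n c = Fr^n P_c`** (over `kW`) -/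
def ptN (n : ℕ) (c : Fin (nS M q A hqM hA)) : Place kW (FRes A M) :=
  triplePt M q A hqM hA ((ssPerm M q A hqM hA)^[n] c)

/-- **THE MULTIPOINTS of level `M q^k`**: on the component `i` (`i = b` = the number of `V`-steps,
`a = k - i`) the multipoint `c` is `Fr^((b - a)⁺) P_c` -/
def xK (k i : ℕ) (c : Fin (nS M q A hqM hA)) : Place kW (FRes A M) :=
  ptN M q A hqM hA (2 * i - k) c

theorem xK_eq_ptN (k i : ℕ) (c : Fin (nS M q A hqM hA)) :
    xK M q A hqM hA k i c = ptN M q A hqM hA (2 * i - k) c := rfl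

theorem ptN_zero (c : Fin (nS M q A hqM hA)) :
    ptN M q A hqM hA 0 c = triplePt M q A hqM hA c := rfl

theorem ptN_one (c : Fin (nS M q A hqM hA)) :
    ptN M q A hqM hA 1 c = triplePt M q A hqM hA (ssPerm M q A hqM hA c) := rfl

theorem ptN_succ (n : ℕ) (c : Fin (nS M q A hqM hA)) :
    ptN M q A hqM hA (n + 1) c = ptN M q A hqM hA n (ssPerm M q A hqM hA c) := rfl

theorem ptN_succ' (n : ℕ) (c : Fin (nS M q A hqM hA)) :
    ptN M q A hqM hA (n + 1) c =
      triplePt M q A hqM hA (ssPerm M q A hqM hA ((ssPerm M q A hqM hA)^[n] c)) := by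
  unfold ptN
  rw [Function.iterate_succ_apply']

theorem ptN_add_two (n : ℕ) (c : Fin (nS M q A hqM hA)) :
    ptN M q A hqM hA (n + 2) c = ptN M q A hqM hA n c := by
  unfold ptN
  rw [ssPerm_iterate_add_two]

theorem ptN_succ_ssPerm (n : ℕ) (c : Fin (nS M q A hqM hA)) :
    ptN M q A hqM hA (n + 1) (ssPerm M q A hqM hA c) = ptN M q A hqM hA n c := by
  rw [← ptN_succ, ptN_add_two]

/-- `ptN` only depends on the parity of `n` -/
theorem ptN_eq_of_even_sub {n m : ℕ} (h : n % 2 = m % 2) (c : Fin (nS M q A hqM hA)) :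
    ptN M q A hqM hA n c = ptN M q A hqM hA m c := by
  have key : ∀ n : ℕ, ptN M q A hqM hA n c = ptN M q A hqM hA (n % 2) c := by
    intro n
    induction n using Nat.strong_induction_on with
    | _ n ih =>
      by_cases hn : n < 2
      · rw [Nat.mod_eq_of_lt hn]
      · obtain ⟨r, rfl⟩ : ∃ r, n = r + 2 := ⟨n - 2, by omega⟩
        rw [ptN_add_two, ih r (by omega), Nat.add_mod_right]
  rw [key n, key m, h]

theorem xK_of_le {k i : ℕ} (h : 2 * i ≤ k) (c : Fin (nS M q A hqM hA)) :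
    xK M q A hqM hA k i c = triplePt M q A hqM hA c := by
  rw [xK_eq_ptN, Nat.sub_eq_zero_of_le h, ptN_zero]

theorem xK_zero (k : ℕ) (c : Fin (nS M q A hqM hA)) :
    xK M q A hqM hA k 0 c = triplePt M q A hqM hA c :=
  xK_of_le M q A hqM hA (by omega) c

/-- in terms of `a = k - i` (the number of `F`-steps): `xK k (k - a) = ptN (k - 2 a)` -/
theorem xK_sub {k a : ℕ} (ha : a ≤ k) (c : Fin (nS M q A hqM hA)) :
    xK M q A hqM hA k (k - a) c = ptN M q A hqM hA (k - 2 * a) c := by
  rw [xK_eq_ptN]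
  congr 1
  omega

/-! ### (P1) values -/

theorem hasValueAt_triplePt_iff (d : Fin (nS M q A hqM hA)) (z : FRes A M) (α : kW) :
    HasValueAt (triplePt M q A hqM hA d) z α ↔
      HasValueAt (ssPt M q A hqM hA d) z ((constIso hq.out hA M).e α) :=
  (constIso hq.out hA M).hasValueAt_place _ z α

/-- value of `z` at `Fr P` = value of `V z` at `P` -/
theorem hasValueAt_triplePt_ssPerm_iff (d : Fin (nS M q A hqM hA)) (z : FRes A M) (α : kW) :
    HasValueAt (triplePt M q A hqM hA (ssPerm M q A hqM hA d)) z α ↔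
      HasValueAt (triplePt M q A hqM hA d) (VqR hA z) α := by
  rw [hasValueAt_triplePt_iff, hasValueAt_triplePt_iff, ssPt_ssPerm, J.hasValueAt_frobP_iff]

/-- value of `V z` at `Fr P` = value of `z` at `P` (`Fr² P = P`) -/
theorem hasValueAt_triplePt_ssPerm_iff' (d : Fin (nS M q A hqM hA)) (z : FRes A M) (α : kW) :
    HasValueAt (triplePt M q A hqM hA (ssPerm M q A hqM hA d)) (VqR hA z) α ↔
      HasValueAt (triplePt M q A hqM hA d) z α := by
  rw [hasValueAt_triplePt_iff, hasValueAt_triplePt_iff, ← J.hasValueAt_frobP_iff,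
    frobP_ssPt_ssPerm]

theorem hasValueAt_ptN_succ_iff (n : ℕ) (c : Fin (nS M q A hqM hA)) (z : FRes A M) (α : kW) :
    HasValueAt (ptN M q A hqM hA (n + 1) c) z α ↔
      HasValueAt (ptN M q A hqM hA n c) (VqR hA z) α := by
  rw [ptN_succ']
  exact hasValueAt_triplePt_ssPerm_iff M q A hqM hA _ z α

theorem hasValueAt_ptN_succ_iff' (n : ℕ) (c : Fin (nS M q A hqM hA)) (z : FRes A M) (α : kW) :
    HasValueAt (ptN M q A hqM hA (n + 1) c) (VqR hA z) α ↔
      HasValueAt (ptN M q A hqM hA n c) z α := by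
  rw [ptN_succ']
  exact hasValueAt_triplePt_ssPerm_iff' M q A hqM hA _ z α

/-- value of `z` at `Fr^n P` = value of `V^n z` at `P` -/
theorem hasValueAt_ptN_add_iff (m n : ℕ) (c : Fin (nS M q A hqM hA)) (z : FRes A M) (α : kW) :
    HasValueAt (ptN M q A hqM hA (m + n) c) z α ↔
      HasValueAt (ptN M q A hqM hA m c) ((VqR hA ^ n) z) α := by
  induction n generalizing z with
  | zero => rw [Nat.add_zero, endPow_zero]
  | succ n ih =>
    rw [← Nat.add_assoc, hasValueAt_ptN_succ_iff, ih, endPow_succ']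

/-- value of `V^n z` at `Fr^n P` = value of `z` at `P` -/
theorem hasValueAt_ptN_add_iff' (m n : ℕ) (c : Fin (nS M q A hqM hA)) (z : FRes A M) (α : kW) :
    HasValueAt (ptN M q A hqM hA (m + n) c) ((VqR hA ^ n) z) α ↔
      HasValueAt (ptN M q A hqM hA m c) z α := by
  induction n generalizing z with
  | zero => rw [Nat.add_zero, endPow_zero]
  | succ n ih =>
    rw [← Nat.add_assoc, endPow_succ, hasValueAt_ptN_succ_iff', ih]

/-- **(P1)** -/
theorem hasValueAt_ptN (n : ℕ) (c : Fin (nS M q A hqM hA)) (z : FRes A M) (α : kW)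
    (h : HasValueAt (triplePt M q A hqM hA c) z α) :
    HasValueAt (ptN M q A hqM hA n c) ((VqR hA ^ n) z) α := by
  have := (hasValueAt_ptN_add_iff' M q A hqM hA 0 n c z α).2 h
  rwa [Nat.zero_add] at this

/-- **(P1) for the multipoints**: the value of `z` at the multipoint of the component `0`
(`= (k, 0)`, all steps `F`) is the value of `V^((b-a)⁺) z` at the multipoint of the component `i` -/
theorem hasValueAt_xK (k i : ℕ) (c : Fin (nS M q A hqM hA)) (z : FRes A M) (α : kW)
    (h : HasValueAt (xK M q A hqM hA k 0 c) z α) :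
    HasValueAt (xK M q A hqM hA k i c) ((VqR hA ^ (2 * i - k)) z) α := by
  rw [xK_zero] at h
  exact hasValueAt_ptN M q A hqM hA _ c z α h

/-- the same in terms of `a = k - i` (the number of `F`-steps; root `a = k`) -/
theorem hasValueAt_xK_sub (k a : ℕ) (ha : a ≤ k) (c : Fin (nS M q A hqM hA)) (z : FRes A M)
    (α : kW) (h : HasValueAt (xK M q A hqM hA k (k - k) c) z α) :
    HasValueAt (xK M q A hqM hA k (k - a) c) ((VqR hA ^ (k - 2 * a)) z) α := by
  rw [Nat.sub_self, xK_zero] at h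
  rw [xK_sub M q A hqM hA ha]
  exact hasValueAt_ptN M q A hqM hA _ c z α h

/-! ### values of the coefficientwise Frobenius (the residue norm of the `V`-fibres) -/

/-- the value of `ρ^{(q)}` at `Fr x` is the `q`-th power of the value of `ρ` at `x` -/
theorem hasValueAt_frobCoeffM_ptN_succ (n : ℕ) (c : Fin (nS M q A hqM hA)) (ρ : FRes A M)
    (v : kW) (h : HasValueAt (ptN M q A hqM hA n c) ρ v) :
    HasValueAt (ptN M q A hqM hA (n + 1) c) (Norm.frobCoeffM hA ρ) (v ^ q) := by
  have h1 := Norm.hasValueAt_frobCoeffM (constIso hq.out hA M) hA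
    (ssPt M q A hqM hA ((ssPerm M q A hqM hA)^[n] c)) ρ v h
  rw [ptN_succ']
  show HasValueAt ((constIso hq.out hA M).place (ssPt M q A hqM hA _)) _ _
  rw [ssPt_ssPerm]
  exact h1

/-- the same downwards (`Fr² x = x`) -/
theorem hasValueAt_frobCoeffM_ptN_pred (n : ℕ) (c : Fin (nS M q A hqM hA)) (ρ : FRes A M)
    (v : kW) (h : HasValueAt (ptN M q A hqM hA (n + 1) c) ρ v) :
    HasValueAt (ptN M q A hqM hA n c) (Norm.frobCoeffM hA ρ) (v ^ q) := by
  have := hasValueAt_frobCoeffM_ptN_succ M q A hqM hA (n + 1) c ρ v h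
  rwa [ptN_add_two] at this

/-! ### the multipoints of two consecutive levels `j + 1` and `j`

Along `α` the component `b` of level `j + 1` lies over the component `b - 1` of level `j`, along `β`
over the component `min b j`; on multipoints `cN_α = id`, `cN_β = cα = ssPerm`.  The residue
extension is trivial ("id-fibres": SAME point) or `V` ("`V`-fibres": the low point is the Frobenius
image of the top one). -/

/-- along `α`, id-fibres (`2 b ≤ j + 1`): the same point -/
theorem xK_alpha_of_le {j b : ℕ} (h : 2 * b ≤ j + 1) (c : Fin (nS M q A hqM hA)) :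
    xK M q A hqM hA j (b - 1) c = xK M q A hqM hA (j + 1) b c := by
  rw [xK_of_le M q A hqM hA h, xK_of_le M q A hqM hA (by omega)]

/-- along `α`, `V`-fibres (`j + 1 < 2 b`): values -/
theorem hasValueAt_xK_alpha_of_lt {j b : ℕ} (h : j + 1 < 2 * b) (c : Fin (nS M q A hqM hA))
    (ρ : FRes A M) (v : kW) (hv : HasValueAt (xK M q A hqM hA (j + 1) b c) ρ v) :
    HasValueAt (xK M q A hqM hA j (b - 1) c) (Norm.frobCoeffM hA ρ) (v ^ q) := by
  rw [xK_eq_ptN] at hv ⊢
  have h1 : 2 * b - (j + 1) = (2 * (b - 1) - j) + 1 := by omega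
  rw [h1] at hv
  exact hasValueAt_frobCoeffM_ptN_pred M q A hqM hA _ c ρ v hv

/-- along `β`, id-fibres (`j + 1 ≤ 2 b`, `b ≤ j + 1`): the same point -/
theorem xK_beta_of_le {j b : ℕ} (h : j + 1 ≤ 2 * b) (hb : b ≤ j + 1)
    (c : Fin (nS M q A hqM hA)) :
    xK M q A hqM hA j (min b j) (ssPerm M q A hqM hA c) = xK M q A hqM hA (j + 1) b c := by
  rw [xK_eq_ptN, xK_eq_ptN]
  rcases Nat.lt_or_ge b (j + 1) with hlt | hge
  · have h1 : 2 * min b j - j = (2 * b - (j + 1)) + 1 := by
      rw [Nat.min_eq_left (by omega)]; omega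
    rw [h1, ptN_succ_ssPerm]
  · have hbj : b = j + 1 := by omega
    subst hbj
    have h1 : 2 * (j + 1) - (j + 1) = (2 * min (j + 1) j - j) + 1 := by
      rw [Nat.min_eq_right (by omega)]; omega
    rw [h1, ptN_succ]

/-- along `β`, `V`-fibres (`2 b ≤ j`): values -/
theorem hasValueAt_xK_beta_of_lt {j b : ℕ} (h : 2 * b ≤ j) (c : Fin (nS M q A hqM hA))
    (ρ : FRes A M) (v : kW) (hv : HasValueAt (xK M q A hqM hA (j + 1) b c) ρ v) :
    HasValueAt (xK M q A hqM hA j (min b j) (ssPerm M q A hqM hA c))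
      (Norm.frobCoeffM hA ρ) (v ^ q) := by
  rw [xK_of_le M q A hqM hA (by omega)] at hv
  rw [Nat.min_eq_left (by omega), xK_of_le M q A hqM hA h, ← ptN_one]
  exact hasValueAt_frobCoeffM_ptN_succ M q A hqM hA 0 c ρ v hv

/-- along `α`, `V`-fibres (`j + 1 < 2 b`): the top multipoint lies over the low one
(shape of the field `pt` of `Chain.StepDataK`, `ιres = V`) -/
theorem pt_xK_alpha_of_lt {j b : ℕ} (h : j + 1 < 2 * b) (c : Fin (nS M q A hqM hA))
    (z : FRes A M) (v : kW) (hv : HasValueAt (xK M q A hqM hA (j + 1) b c) (VqR hA z) v) :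
    HasValueAt (xK M q A hqM hA j (b - 1) c) z v := by
  rw [xK_eq_ptN] at hv ⊢
  have h1 : 2 * b - (j + 1) = (2 * (b - 1) - j) + 1 := by omega
  rw [h1] at hv
  exact (hasValueAt_ptN_succ_iff' M q A hqM hA _ c z v).1 hv

/-- along `β`, `V`-fibres (`2 b ≤ j`): the top multipoint `c` lies over the low one `cα c` -/
theorem pt_xK_beta_of_lt {j b : ℕ} (h : 2 * b ≤ j) (c : Fin (nS M q A hqM hA))
    (z : FRes A M) (v : kW) (hv : HasValueAt (xK M q A hqM hA (j + 1) b c) (VqR hA z) v) :
    HasValueAt (xK M q A hqM hA j (min b j) (ssPerm M q A hqM hA c)) z v := by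
  rw [xK_of_le M q A hqM hA (by omega), ← ptN_zero] at hv
  rw [Nat.min_eq_left (by omega), xK_of_le M q A hqM hA h, ← ptN_one]
  exact (hasValueAt_ptN_succ_iff M q A hqM hA 0 c z v).2 hv

/-! ### (P4) degrees, injectivity, regularity of `j̄` -/

theorem deg_ptN (n : ℕ) (c : Fin (nS M q A hqM hA)) : (ptN M q A hqM hA n c).deg = 1 := by
  obtain ⟨gM, hFk⟩ := exists_genus_FRes M q A hqM hA
  exact J.deg_triplePt hFk _

theorem deg_xK (k i : ℕ) (c : Fin (nS M q A hqM hA)) : (xK M q A hqM hA k i c).deg = 1 :=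
  deg_ptN M q A hqM hA _ c

theorem ptN_injective (n : ℕ) : Function.Injective (ptN M q A hqM hA n) := by
  haveI := hasPrincipalDivisors_FRes M q A hqM hA
  intro c d h
  exact ssPerm_iterate_injective M q A hqM hA n (triplePt_injective h)

theorem xK_injective (k i : ℕ) : Function.Injective (xK M q A hqM hA k i) :=
  ptN_injective M q A hqM hA _

theorem jK_mem_ptN (n : ℕ) (c : Fin (nS M q A hqM hA)) :
    Gink.jK A M ∈ (ptN M q A hqM hA n c).toValuationSubring := by
  haveI := hasPrincipalDivisors_FRes M q A hqM hA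
  exact jK_mem_triplePt _

theorem jK_mem_xK (k i : ℕ) (c : Fin (nS M q A hqM hA)) :
    Gink.jK A M ∈ (xK M q A hqM hA k i c).toValuationSubring :=
  jK_mem_ptN M q A hqM hA _ c

theorem jK_pow_mem_xK (k i t : ℕ) (c : Fin (nS M q A hqM hA)) :
    Gink.jK A M ^ t ∈ (xK M q A hqM hA k i c).toValuationSubring :=
  pow_mem (jK_mem_xK M q A hqM hA k i c) t

/-- the points `ptN n c` are again triple points: every statement about all `triplePt d` holds
for them -/
theorem ptN_eq_triplePt (n : ℕ) (c : Fin (nS M q A hqM hA)) :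
    ∃ d, ptN M q A hqM hA n c = triplePt M q A hqM hA d := ⟨_, rfl⟩

theorem xK_eq_triplePt (k i : ℕ) (c : Fin (nS M q A hqM hA)) :
    ∃ d, xK M q A hqM hA k i c = triplePt M q A hqM hA d := ⟨_, rfl⟩

/-! ### (P2) the supersingular polynomial -/

/-- `V^n H = H ^ q^n` -/
theorem VqR_pow_H₂ (n : ℕ) :
    (VqR hA ^ n) (LSb.Unit.H₂ (nodeD1 M q A hqM hA)) =
      LSb.Unit.H₂ (nodeD1 M q A hqM hA) ^ q ^ n :=
  endPow_of_pow _ (Count.VqR_H₂ hA (isGaussOne_nodeD1 M q A hqM hA)) n

theorem ord_H₂_ptN (haux : Fin.IsAuxLevel M q) (n : ℕ) (c : Fin (nS M q A hqM hA)) :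
    (ptN M q A hqM hA n c).ord (LSb.Unit.H₂ (nodeD1 M q A hqM hA)) = 12 :=
  J.ord_H₂_triplePt haux _

theorem ord_H₂_xK (haux : Fin.IsAuxLevel M q) (k i : ℕ) (c : Fin (nS M q A hqM hA)) :
    (xK M q A hqM hA k i c).ord (LSb.Unit.H₂ (nodeD1 M q A hqM hA)) = 12 :=
  ord_H₂_ptN M q A hqM hA haux _ c

theorem ord_VqR_pow_H₂_ptN (haux : Fin.IsAuxLevel M q) (n n' : ℕ) (c : Fin (nS M q A hqM hA)) :
    (ptN M q A hqM hA n c).ord ((VqR hA ^ n') (LSb.Unit.H₂ (nodeD1 M q A hqM hA))) =
      (q : ℤ) ^ n' * 12 := by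
  rw [VqR_pow_H₂, S18lib.Cech.ord_pow, ord_H₂_ptN M q A hqM hA haux]
  push_cast
  ring

theorem adicValuation_VqR_pow_H₂_ptN_lt_one (n n' : ℕ) (c : Fin (nS M q A hqM hA)) :
    (ptN M q A hqM hA n c).adicValuation
      ((VqR hA ^ n') (LSb.Unit.H₂ (nodeD1 M q A hqM hA))) < 1 := by
  rw [VqR_pow_H₂, map_pow]
  exact pow_lt_one₀ zero_le (J.adicValuation_H₂_triplePt_lt_one _)
    (pow_ne_zero _ hq.out.ne_zero)

theorem adicValuation_VqR_pow_H₂_xK_lt_one (k i n' : ℕ) (c : Fin (nS M q A hqM hA)) :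
    (xK M q A hqM hA k i c).adicValuation
      ((VqR hA ^ n') (LSb.Unit.H₂ (nodeD1 M q A hqM hA))) < 1 :=
  adicValuation_VqR_pow_H₂_ptN_lt_one M q A hqM hA _ n' c

/-! ### (P3) orders -/

theorem ord_ptN_eq (n : ℕ) (c : Fin (nS M q A hqM hA)) (z : FRes A M) :
    (ptN M q A hqM hA n c).ord z = (ssPt M q A hqM hA ((ssPerm M q A hqM hA)^[n] c)).ord z := rfl

/-- the ramification index of `V` at `ptN n c` over `ptN (n + 1) c` is `q` -/
theorem ord_VqR_ptN (n : ℕ) (c : Fin (nS M q A hqM hA)) (z : FRes A M) :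
    (ptN M q A hqM hA n c).ord (VqR hA z) = (q : ℤ) * (ptN M q A hqM hA (n + 1) c).ord z := by
  rw [ord_ptN_eq, Reg.ord_VqR hA, ptN_succ', J.ord_triplePt, ssPt_ssPerm]
  rfl

/-- **(P3)** -/
theorem ord_VqR_pow_ptN (n n' : ℕ) (c : Fin (nS M q A hqM hA)) (z : FRes A M) :
    (ptN M q A hqM hA n c).ord ((VqR hA ^ n') z) =
      (q : ℤ) ^ n' * (ptN M q A hqM hA (n + n') c).ord z := by
  induction n' generalizing n with
  | zero => rw [endPow_zero, pow_zero, one_mul, Nat.add_zero]
  | succ n' ih =>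
    rw [endPow_succ, ord_VqR_ptN, ih, pow_succ']
    have : n + 1 + n' = n + (n' + 1) := by omega
    rw [this]
    ring

/-- a function with simple zeros at all the supersingular points -/
theorem ord_VqR_pow_ptN_of_ord_one {z : FRes A M}
    (hz : ∀ d, (triplePt M q A hqM hA d).ord z = 1) (n n' : ℕ) (c : Fin (nS M q A hqM hA)) :
    (ptN M q A hqM hA n c).ord ((VqR hA ^ n') z) = (q : ℤ) ^ n' := by
  rw [ord_VqR_pow_ptN]
  unfold ptN
  rw [hz, mul_one]

theorem ord_VqR_pow_xK_of_ord_one {z : FRes A M}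
    (hz : ∀ d, (triplePt M q A hqM hA d).ord z = 1) (k i n' : ℕ) (c : Fin (nS M q A hqM hA)) :
    (xK M q A hqM hA k i c).ord ((VqR hA ^ n') z) = (q : ℤ) ^ n' :=
  ord_VqR_pow_ptN_of_ord_one M q A hqM hA hz _ n' c

/-- **the simultaneous local parameter `τ` of level `M`** (and its Frobenius twist `τ'`) at ALL the
multipoints: `ord_{x_i c} (V^n τ̄) = q^n` -/
theorem exists_tauK :
    ∃ τ τ' : Desc2.fixF M (A.inertiaSubgroupIn ℚ),
      τ ∈ (Norm.ofGauss (Desc2.gaussMK M A hqM hA)).O ∧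
      τ' ∈ (Norm.ofGauss (Desc2.gaussMK M A hqM hA)).O ∧
      (Norm.ofGauss (Desc2.gaussMK M A hqM hA)).redF τ' =
        VqR hA ((Norm.ofGauss (Desc2.gaussMK M A hqM hA)).redF τ) ∧
      τ ∈ Desc2.regAwayFix M (A.inertiaSubgroupIn ℚ) ∧
      τ' ∈ Desc2.regAwayFix M (A.inertiaSubgroupIn ℚ) ∧
      (∀ (n n' : ℕ) c, (ptN M q A hqM hA n c).ord
        ((VqR hA ^ n') ((Norm.ofGauss (Desc2.gaussMK M A hqM hA)).redF τ)) = (q : ℤ) ^ n') ∧
      ∀ (k i n' : ℕ) c, (xK M q A hqM hA k i c).ord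
        ((VqR hA ^ n') ((Norm.ofGauss (Desc2.gaussMK M A hqM hA)).redF τ)) = (q : ℤ) ^ n' := by
  obtain ⟨τ, τ', h1, h2, h3, h4, h5, h6, h7⟩ := Desc2.exists_tau_triplePt M q A hqM hA
  exact ⟨τ, τ', h1, h2, h3, h4, h5,
    fun n n' c => ord_VqR_pow_ptN_of_ord_one M q A hqM hA h7 n n' c,
    fun k i n' c => ord_VqR_pow_xK_of_ord_one M q A hqM hA h7 k i n' c⟩

end Points

end Fermat.Agent.S45lib.SS
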