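/-
S45lib / SS / UnitOrd  (helper4)  --  Project J, supersingular-point block of (KM)

**THE FULL UNIT TABLE at level `M q^k`** (input of helper6's derivation (M2) of `MCtx.mult`):
for the units `E_a = Ec a` of `SS/RowsK` (`v_a = m`, `v_{a'} = 0`, `∏ₐ E_a = π^m`) and every pair of
components `a' ≠ a`, at every place `x` of `κ` with `ord_x H = m` (the supersingular points),

  `ord_x red_{a'} (E_a) = m · e_a · w_{a' a}`,

with helper5's closed forms `e_a = CountK.eK q k a = φ(q^(min a (k-a)))` and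
`w_{a' a} = CountK.wK q k a' a` (`= q^(min |d_a| |d_{a'}|)` on the same strict side, `1` otherwise).
Here the components are indexed by the number `a` of `F`-steps (as in `SS/RowsK`); both `eK` and
`wK` are invariant under `a ↦ k - a` (`CountK.eK_reflect`, `CountK.wK_reflect`).

Exact reductions (`V H = H^q`):
* `a < a'`: `red_{a'} E_0 = V^(dTw k a' 0) H`,
            `red_{a'} E_a = V^(D+1) H / V^D H`, `D = dTw k a' (a-1)` (`a ≥ 1`);
* `a > a'`: `red_{a'} E_k = V^(dTw k a' k) H`,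
            `red_{a'} E_a = V^(D+1) H / V^D H`, `D = dTw k a' (a+1)` (`a < k`).
-/
import Mathlib
import Fermat.Agent.S45lib.SS.RowsK
import Fermat.Agent.S45lib.CountK.Weights

set_option autoImplicit false
set_option linter.unusedSectionVars false

noncomputable section

namespace Fermat.Agent.S45lib.SS

open AlgebraicCurve
open Fermat.Agent.LSb (HasValueAt)
open Fermat.Agent.S36lib

/-! ### the arithmetic of the exponents -/

theorem exp_zero_lt {k a' : ℕ} (ha' : a' ≤ k) :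
    dTw k a' 0 = min ((k - 2 * a') + (2 * 0 - k)) ((2 * a' - k) + (k - 2 * 0)) := by
  unfold dTw
  split_ifs <;> omega

theorem exp_last_gt {k a' : ℕ} (ha' : a' ≤ k) :
    dTw k a' k = min ((k - 2 * a') + (2 * k - k)) ((2 * a' - k) + (k - 2 * k)) := by
  unfold dTw
  split_ifs <;> omega

theorem exp_inner_lt {k a a' : ℕ} (ha : 0 < a) (haa' : a < a') (ha' : a' ≤ k) :
    dTw k a' (a - 1) =
      (min a (k - a) - 1) + min ((k - 2 * a') + (2 * a - k)) ((2 * a' - k) + (k - 2 * a)) := by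
  unfold dTw
  split_ifs <;> omega

theorem exp_inner_gt {k a a' : ℕ} (haa' : a' < a) (hak : a < k) :
    dTw k a' (a + 1) =
      (min a (k - a) - 1) + min ((k - 2 * a') + (2 * a - k)) ((2 * a' - k) + (k - 2 * a)) := by
  unfold dTw
  split_ifs <;> omega

/-- `q^D (q - 1) = e_a w_{a' a}` when `D = (min a (k-a) - 1) + (exponent of w)` and
`min a (k-a) ≥ 1` -/
theorem pow_mul_pred_eq {q : ℕ} (hq : q.Prime) {k a a' D : ℕ} (hmin : 0 < min a (k - a))
    (hD : D = (min a (k - a) - 1) +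
      min ((k - 2 * a') + (2 * a - k)) ((2 * a' - k) + (k - 2 * a))) :
    q ^ D * (q - 1) = CountK.eK q k a * CountK.wK q k a' a := by
  unfold CountK.eK CountK.wK
  rw [Nat.totient_prime_pow hq hmin, hD, pow_add]
  ring

/-- `q^D = e_a w_{a' a}` for the two outer components `a = 0, k` -/
theorem pow_eq_outer {q : ℕ} {k a a' D : ℕ} (hmin : min a (k - a) = 0)
    (hD : D = min ((k - 2 * a') + (2 * a - k)) ((2 * a' - k) + (k - 2 * a))) :
    q ^ D = CountK.eK q k a * CountK.wK q k a' a := by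
  unfold CountK.eK CountK.wK
  rw [hmin, pow_zero, Nat.totient_one, one_mul, hD]

variable {F₀ F₁ F κ : Type*} [Field F₀] [Field F₁] [Field F] [Field κ]
variable {k : ℕ} {V : κ →+* κ} {pos : ℕ → F₀ →+* F} {step : ℕ → F₁ →+* F}
variable {WM : Norm.Place F₀ κ} {W₁ W₂ : Norm.Place F₁ κ} {P : Fin (k + 1) → Norm.Place F κ}
variable {π₀ X Y : F₁} {H : κ} {m : ℕ} {π : F}

section Red

variable (T : RowsK k V pos step WM W₁ W₂ P) (U : UnitDataK W₁ W₂ π₀ X Y H m)
variable (hstep : ∀ i, i < k → step i π₀ = π) (hπ : π ≠ 0)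

include T U

/-- `red_{a'} E_0 = V^(dTw k a' 0) H` for `a' > 0` -/
theorem redF_Ec_zero_lt (a' : Fin (k + 1)) (ha' : 0 < (a' : ℕ)) :
    (P a').redF (Ec k step X (π ^ m) 0) = (V ^ dTw k a' 0) H := by
  rw [Ec, Xc_zero, inv_one, mul_one, redF_Xc_lo T U a' 0 ha']

/-- `red_{a'} E_a = V^(D+1) H / V^D H`, `D = dTw k a' (a-1)`, for `0 < a < a'` -/
theorem redF_Ec_inner_lt (a' : Fin (k + 1)) (a : ℕ) (ha : 0 < a) (haa' : a < (a' : ℕ)) :
    (P a').redF (Ec k step X (π ^ m) a) =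
      (V ^ (dTw k a' (a - 1) + 1)) H * ((V ^ dTw k a' (a - 1)) H)⁻¹ := by
  obtain ⟨i, rfl⟩ : ∃ i, a = i + 1 := ⟨a - 1, by omega⟩
  have e1 := redF_Xc_lo (π := π) T U a' (i + 1) haa'
  have e2 := redF_Xc_lo (π := π) T U a' i (by omega)
  have hne : (P a').redF (Xc k step X (π ^ m) (i + 1)) ≠ 0 := by
    rw [e2]; exact (map_ne_zero _).2 U.H_ne
  have hne1 : (P a').redF (Xc k step X (π ^ m) (i + 1 + 1)) ≠ 0 := by
    rw [e1]; exact (map_ne_zero _).2 U.H_ne
  rw [Ec, redF_mul_inv ((P a').mem_of_redF_ne_zero hne1) hne, e1, e2,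
    dTw_succ_of_lt k a' i (by omega), Nat.add_sub_cancel]

include hstep hπ

/-- `red_{a'} E_k = V^(dTw k a' k) H` for `a' < k` -/
theorem redF_Ec_last_gt (a' : Fin (k + 1)) (ha' : (a' : ℕ) < k) :
    (P a').redF (Ec k step X (π ^ m) k) = (V ^ dTw k a' k) H := by
  have hk1 : k - 1 + 1 = k := by omega
  have e2 := redF_Xc_hi T U hstep a' (k - 1) (by omega) (by omega)
  rw [hk1] at e2
  have hne : (P a').redF (Xc k step X (π ^ m) k * (π ^ m)⁻¹) ≠ 0 := by
    rw [e2]; exact inv_ne_zero ((map_ne_zero _).2 U.H_ne)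
  have e1 := redF_Xc_last (P := P) (step := step) (X := X) (m := m) hπ a'
  rw [Ec_eq_hi hπ, redF_mul_inv ((P a').mem_of_redF_ne_zero (by rw [e1]; exact one_ne_zero)) hne,
    e1, one_mul, e2, inv_inv]

/-- `red_{a'} E_a = V^(D+1) H / V^D H`, `D = dTw k a' (a+1)`, for `a' < a < k` -/
theorem redF_Ec_inner_gt (a' : Fin (k + 1)) (a : ℕ) (haa' : (a' : ℕ) < a) (hak : a < k) :
    (P a').redF (Ec k step X (π ^ m) a) =
      (V ^ (dTw k a' (a + 1) + 1)) H * ((V ^ dTw k a' (a + 1)) H)⁻¹ := by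
  obtain ⟨i, rfl⟩ : ∃ i, a = i + 1 := ⟨a - 1, by omega⟩
  have e1 := redF_Xc_hi T U hstep a' (i + 1) (by omega) hak
  have e2 := redF_Xc_hi T U hstep a' i (by omega) (by omega)
  have hne : (P a').redF (Xc k step X (π ^ m) (i + 1) * (π ^ m)⁻¹) ≠ 0 := by
    rw [e2]; exact inv_ne_zero ((map_ne_zero _).2 U.H_ne)
  have hne1 : (P a').redF (Xc k step X (π ^ m) (i + 1 + 1) * (π ^ m)⁻¹) ≠ 0 := by
    rw [e1]; exact inv_ne_zero ((map_ne_zero _).2 U.H_ne)
  rw [Ec_eq_hi hπ, redF_mul_inv ((P a').mem_of_redF_ne_zero hne1) hne, e1, e2, inv_inv, mul_comm,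
    dTw_succ_of_le k a' (i + 1) (by omega) hak]

end Red

/-! ### the orders -/

section Ord

variable {k₀ : Type*} [Field k₀] [Algebra k₀ κ] (x : Place k₀ κ) {q : ℕ} (hq : q.Prime)
variable (hH : H ≠ 0) (hVH : V H = H ^ q) (hoH : x.ord H = m)

include hq hH hVH hoH

/-- `ord_x (V^D H) = m q^D` -/
theorem ord_pow_H (D : ℕ) : x.ord ((V ^ D) H) = (m : ℤ) * ((q ^ D : ℕ) : ℤ) := by
  rw [pow_apply_of_pow V hVH, S18lib.Cech.ord_pow, hoH]
  ring

/-- `ord_x (V^(D+1) H / V^D H) = m q^D (q - 1)` -/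
theorem ord_ratio_H (D : ℕ) :
    x.ord ((V ^ (D + 1)) H * ((V ^ D) H)⁻¹) = (m : ℤ) * ((q ^ D * (q - 1) : ℕ) : ℤ) := by
  have hne : ∀ n, (V ^ n) H ≠ 0 := fun n => (map_ne_zero _).2 hH
  rw [x.ord_mul (hne _) (inv_ne_zero (hne _)), x.ord_inv, ord_pow_H x hq hH hVH hoH,
    ord_pow_H x hq hH hVH hoH]
  have h1 : 1 ≤ q := hq.one_le
  push_cast [Nat.cast_sub h1]
  ring

end Ord

/-- **THE FULL UNIT TABLE**: `ord_x red_{a'} (E_a) = m · e_a · w_{a' a}` for `a' ≠ a`, at every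
place `x` with `ord_x H = m`. -/
theorem ord_redF_Ec (T : RowsK k V pos step WM W₁ W₂ P) (U : UnitDataK W₁ W₂ π₀ X Y H m)
    (hstep : ∀ i, i < k → step i π₀ = π) (hπ : π ≠ 0)
    {k₀ : Type*} [Field k₀] [Algebra k₀ κ] (x : Place k₀ κ) {q : ℕ} (hq : q.Prime)
    (hVH : V H = H ^ q) (hoH : x.ord H = m) (a a' : Fin (k + 1)) (h : a' ≠ a) :
    x.ord ((P a').redF (Ec k step X (π ^ m) (a : ℕ))) =
      (m : ℤ) * ((CountK.eK q k (a : ℕ) * CountK.wK q k (a' : ℕ) (a : ℕ) : ℕ) : ℤ) := by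
  have hak : (a : ℕ) ≤ k := by have := a.2; omega
  have ha'k : (a' : ℕ) ≤ k := by have := a'.2; omega
  have hne : (a' : ℕ) ≠ (a : ℕ) := fun h' => h (Fin.ext h')
  rcases lt_or_gt_of_ne hne with hlt | hgt
  · -- `a' < a`
    by_cases hk : (a : ℕ) = k
    · rw [hk, redF_Ec_last_gt T U hstep hπ a' (by omega), ord_pow_H x hq U.H_ne hVH hoH,
        pow_eq_outer (by omega) (exp_last_gt ha'k)]
    · rw [redF_Ec_inner_gt T U hstep hπ a' _ hlt (by omega), ord_ratio_H x hq U.H_ne hVH hoH,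
        pow_mul_pred_eq hq (by omega) (exp_inner_gt hlt (by omega))]
  · -- `a < a'`
    by_cases h0 : (a : ℕ) = 0
    · rw [h0, redF_Ec_zero_lt T U a' (by omega), ord_pow_H x hq U.H_ne hVH hoH,
        pow_eq_outer (by omega) (exp_zero_lt ha'k)]
    · rw [redF_Ec_inner_lt T U a' _ (by omega) hgt, ord_ratio_H x hq U.H_ne hVH hoH,
        pow_mul_pred_eq hq (by omega) (exp_inner_lt (by omega) hgt ha'k)]

end Fermat.Agent.S45lib.SS
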