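/-
S45lib / SS / Table  (helper4)  --  Project J, supersingular-point block of (KM)

**helper6's `MThick.UnitTable` (the input (M2) of `MCtx.mult`) FROM THE RESTRICTION ROWS.**

`D : MDatum R F (Fin (k+1)) (fun _ => κ)` a multi-component datum whose components are indexed by the
number `i = b` of `V`-steps (convention of the project: `a = k - i`), with
`D.e i = CountK.eK q k i`, `D.w i j = CountK.wK q k i j`, and whose places
`a ↦ G.placeOf D (Fin.rev a)` satisfy the rows `SS.RowsK`.  Then the units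
`E i = Ec (k - i)` (`SS/RowsK`) form a `UnitTable D m E`:
`v_i (E i) ≥ m e_i`, `∏ E i = π^m`, `ord_{x_i c} red_i (E j) = m e_j w_{ij}`.
Hence `MultBase.mult_of_unitTable` gives the field `mult` of `MCtx`.
-/
import Mathlib
import Fermat.Agent.S45lib.SS.UnitOrd
import Fermat.Agent.S45lib.MThick.Mult
import Fermat.Agent.S45lib.G.Twist

set_option autoImplicit false
set_option linter.unusedSectionVars false

noncomputable section

namespace Fermat.Agent.S45lib.SS

open AlgebraicCurve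
open Fermat.Agent.LSb (HasValueAt)
open Fermat.Agent.S36lib
open Fermat.Agent.S45lib.MThick

variable {K : Type*} [Field K] {R : ValuationSubring K}
variable {F : Type*} [Field F] [Algebra K F]
variable {κ : Type*} [Field κ] [Algebra (IsLocalRing.ResidueField R) κ]
variable {F₀ F₁ : Type*} [Field F₀] [Field F₁]
variable {k : ℕ} {V : κ →+* κ} {pos : ℕ → F₀ →+* F} {step : ℕ → F₁ →+* F}
variable {WM : Norm.Place F₀ κ} {W₁ W₂ : Norm.Place F₁ κ}
variable {π₀ X Y : F₁} {H : κ} {m : ℕ}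

/-- the unit of the component `i = b` (number of `V`-steps) -/
def EcB (k : ℕ) (step : ℕ → F₁ →+* F) (X : F₁) (πm : F) (i : Fin (k + 1)) : F :=
  Ec k step X πm ((Fin.rev i : Fin (k + 1)) : ℕ)

theorem val_rev (i : Fin (k + 1)) : ((Fin.rev i : Fin (k + 1)) : ℕ) = k - (i : ℕ) := by
  rw [Fin.val_rev]
  omega

/-- `v_j E ≥ m e_j` from `E / π^m ∈ O_j` and `ϖ_j^(e_j) = π · unit` -/
theorem ge_of_div_mem (D : MDatum R F (Fin (k + 1)) (fun _ => κ)) (j : Fin (k + 1))
    (hunif : ∃ u : (D.V j).Oˣ, D.ϖ j ^ D.e j = algebraMap K F D.π * ((u : (D.V j).O) : F))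
    {E : F} (m : ℕ)
    (hE : E * (algebraMap K F D.π ^ m)⁻¹ ∈ (D.V j).O) :
    D.Ge j ((m * D.e j : ℕ) : ℤ) E := by
  obtain ⟨u, hu⟩ := hunif
  have hu0 : ((u : (D.V j).O) : F) ≠ 0 := fun h0 => u.ne_zero (Subtype.ext h0)
  have huinv : (((u⁻¹ : (D.V j).Oˣ) : (D.V j).O) : F) = ((u : (D.V j).O) : F)⁻¹ := by
    have h1 : ((u : (D.V j).O) : F) * (((u⁻¹ : (D.V j).Oˣ) : (D.V j).O) : F) = 1 := by
      rw [← (D.V j).O.coe_mul, Units.mul_inv]; rfl
    exact eq_inv_of_mul_eq_one_right h1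
  have hpow : D.ϖ j ^ (m * D.e j) = algebraMap K F D.π ^ m * ((u : (D.V j).O) : F) ^ m := by
    rw [mul_comm m, pow_mul, hu, mul_pow]
  have key : E * D.ϖ j ^ (-((m * D.e j : ℕ) : ℤ)) =
      (E * (algebraMap K F D.π ^ m)⁻¹) * (((u⁻¹ : (D.V j).Oˣ) : (D.V j).O) : F) ^ m := by
    rw [zpow_neg, zpow_natCast, hpow, huinv, mul_inv, inv_pow]
    ring
  rw [MDatum.Ge, key]
  exact (D.V j).O.mul_mem _ _ hE ((D.V j).O.pow_mem ((u⁻¹ : (D.V j).Oˣ) : (D.V j).O).2 m)

/-- **The unit table of the modular datum from the rows.** -/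
theorem unitTable_of_rowsK (D : MDatum R F (Fin (k + 1)) (fun _ => κ)) {q : ℕ} (hq : q.Prime)
    (he : ∀ i, D.e i = CountK.eK q k (i : ℕ))
    (hw : ∀ i j, D.w i j = CountK.wK q k (i : ℕ) (j : ℕ))
    (T : RowsK k V pos step WM W₁ W₂ (fun a => G.placeOf D (Fin.rev a)))
    (U : UnitDataK W₁ W₂ π₀ X Y H m)
    (hstep : ∀ i, i < k → step i π₀ = algebraMap K F D.π) (hπ : D.π ≠ 0) (hπR : D.π ∈ R)
    (hm : 0 < m)
    (hunif : ∀ i, ∃ u : (D.V i).Oˣ,
      D.ϖ i ^ D.e i = algebraMap K F D.π * ((u : (D.V i).O) : F))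
    (h𝓛 : ∃ a₀ b₀ : ℕ, ∀ i, EcB k step X (algebraMap K F D.π ^ m) i ∈ D.𝓛 a₀ b₀)
    (hVH : V H = H ^ q) (hoH : ∀ i c, (D.x i c).ord H = m) :
    UnitTable D m (EcB k step X (algebraMap K F D.π ^ m)) := by
  have hπF : algebraMap K F D.π ≠ 0 := (map_ne_zero _).2 hπ
  have hπO : ∀ i, algebraMap K F D.π ∈ (D.V i).O := fun i =>
    ((D.V i).algebraMap_mem_iff _).2 hπR
  have hrev : ∀ i : Fin (k + 1), Fin.rev (Fin.rev i) = i := Fin.rev_rev
  -- `E j / π^m ∈ O_j`
  have hself : ∀ j, EcB k step X (algebraMap K F D.π ^ m) j * (algebraMap K F D.π ^ m)⁻¹ ∈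
      (D.V j).O := by
    intro j
    have h := Ec_red_self T U hstep hπF (Fin.rev j)
    have h2 := (G.placeOf D (Fin.rev (Fin.rev j))).mem_of_redF_ne_zero h
    rw [hrev] at h2
    exact h2
  refine
    { m_pos := hm
      mem_𝓛 := h𝓛
      mem_O := ?_
      ge := fun j => ge_of_div_mem D j (hunif j) m (hself j)
      prod := ?_
      ord := ?_ }
  · -- integrality
    intro j
    refine MDatum.mem_O.2 fun l => ?_
    by_cases hl : l = j
    · subst hl
      have h1 := (D.V l).O.mul_mem _ _ (hself l) ((D.V l).O.pow_mem (hπO l) m)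
      rwa [inv_mul_cancel_right₀ (pow_ne_zero m hπF)] at h1
    · have h := Ec_red_other T U hstep hπF (Fin.rev j) (Fin.rev l)
        (fun h' => hl (Fin.rev_injective h'))
      have h2 := (G.placeOf D (Fin.rev (Fin.rev l))).mem_of_redF_ne_zero h
      rw [hrev] at h2
      exact h2
  · -- the product
    rw [map_pow]
    have h := prod_Ec (k := k) step U.X_ne (pow_ne_zero m hπF)
    have h2 := Equiv.prod_comp Fin.revPerm (fun a : Fin (k + 1) =>
      Ec k step X (algebraMap K F D.π ^ m) (a : ℕ))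
    exact h2.trans h
  · -- the orders
    intro i j hij c
    have h := ord_redF_Ec T U hstep hπF (D.x i c) hq hVH (hoH i c) (Fin.rev j) (Fin.rev i)
      (fun h' => hij (Fin.rev_injective h'))
    have hi : (i : ℕ) ≤ k := by have := i.2; omega
    have hj : (j : ℕ) ≤ k := by have := j.2; omega
    have e1 : CountK.eK q k ((Fin.rev j : Fin (k + 1)) : ℕ) = CountK.eK q k (j : ℕ) := by
      rw [val_rev, CountK.eK_reflect hj]
    have e2 : CountK.wK q k ((Fin.rev i : Fin (k + 1)) : ℕ) ((Fin.rev j : Fin (k + 1)) : ℕ) =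
        CountK.wK q k (i : ℕ) (j : ℕ) := by
      rw [val_rev, val_rev, CountK.wK_reflect hi hj]
    rw [e1, e2] at h
    have h3 : D.redF i (EcB k step X (algebraMap K F D.π ^ m) j) =
        (G.placeOf D (Fin.rev (Fin.rev i))).redF
          (Ec k step X (algebraMap K F D.π ^ m) ((Fin.rev j : Fin (k + 1)) : ℕ)) := by
      rw [hrev]; rfl
    rw [h3, h, he, hw]
    push_cast
    exact le_of_eq (by ring)

end Fermat.Agent.S45lib.SS
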